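import Fermat.Agent.S55.G.Defs

/-!
# S55 / layer G / leaf G-LOC (helper897), part 3: `L ⊗[ℚ] ℚ_S` is a reduced Artinian ring

For a number field `L` and a finite set `S` of primes, the `S`-adèle ring
`AS S L = L ⊗[ℚ] ℚ_S` is Artinian and reduced, i.e. a finite product of fields.
-/

set_option autoImplicit false
set_option linter.style.haveILetI false

open scoped TensorProduct

namespace Fermat.Agent.S55.G.LocH897

/-- `L ⊗_ℚ F` is reduced for a number field `L` and a field `F` of characteristic `0`. -/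
lemma isReduced_tensor_field (L F : Type) [Field L] [NumberField L] [Field F] [Algebra ℚ F] :
    IsReduced (L ⊗[ℚ] F) := by
  haveI : Algebra.FormallyUnramified ℚ L := Algebra.FormallyUnramified.of_isSeparable ℚ L
  haveI : IsReduced (F ⊗[ℚ] L) := Algebra.FormallyUnramified.isReduced_of_field F (F ⊗[ℚ] L)
  exact isReduced_of_injective (Algebra.TensorProduct.comm ℚ L F)
    (Algebra.TensorProduct.comm ℚ L F).injective

/-- `L ⊗_ℚ F` is Artinian for a number field `L` and a field `F` of characteristic `0`. -/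
lemma isArtinianRing_tensor_field (L F : Type) [Field L] [NumberField L] [Field F]
    [Algebra ℚ F] : IsArtinianRing (L ⊗[ℚ] F) := by
  haveI : IsArtinianRing (F ⊗[ℚ] L) := IsArtinianRing.of_finite F (F ⊗[ℚ] L)
  exact (Algebra.TensorProduct.comm ℚ F L).toRingEquiv.isArtinianRing

lemma isReduced_pi' {ι : Type} (R : ι → Type) [∀ i, CommRing (R i)] [∀ i, IsReduced (R i)] :
    IsReduced (∀ i, R i) :=
  ⟨fun x ⟨n, hn⟩ => funext fun i => IsReduced.eq_zero _ ⟨n, by simpa using congrFun hn i⟩⟩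

variable (S : Finset Nat.Primes) (L : Type) [Field L] [NumberField L]

/-- `L ⊗[ℚ] ℚ_S ≃ ∏_{q ∈ S} L ⊗[ℚ] ℚ_q`. -/
noncomputable def asEquivPi : AS S L ≃ₐ[ℚ] (∀ q : S, L ⊗[ℚ] Qq q.1) :=
  letI : DecidableEq S := Classical.decEq _
  (Algebra.TensorProduct.congr AlgEquiv.refl (QS.toPi S)).trans
    (Algebra.TensorProduct.piRight ℚ ℚ L (fun q : S => Qq q.1))

lemma asEquivPi_tmul (x : L) (y : QS S) (q : S) :
    asEquivPi S L (x ⊗ₜ[ℚ] y) q = x ⊗ₜ[ℚ] (QS.proj S q y) := rfl

theorem isReduced_AS : IsReduced (AS S L) := by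
  haveI : ∀ q : S, IsReduced (L ⊗[ℚ] Qq q.1) := fun q => isReduced_tensor_field L (Qq q.1)
  haveI := isReduced_pi' (fun q : S => L ⊗[ℚ] Qq q.1)
  exact isReduced_of_injective (asEquivPi S L) (asEquivPi S L).injective

theorem isArtinianRing_AS : IsArtinianRing (AS S L) := by
  haveI : ∀ q : S, IsArtinianRing (L ⊗[ℚ] Qq q.1) :=
    fun q => isArtinianRing_tensor_field L (Qq q.1)
  exact (asEquivPi S L).symm.toRingEquiv.isArtinianRing

end Fermat.Agent.S55.G.LocH897
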