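import Mathlib

/-!
# S55 / layer G / leaf G-LOC (helper897), part 1: semi-local rings with a group action

`R` is a reduced Artinian commutative ring (a finite product of fields, e.g. `L ⊗_ℚ ℚ_S`), and a
group `G` acts on `R` by ring automorphisms `φ : G →* (R ≃+* R)`.

* `decomp φ I` : the decomposition group (stabiliser) of an ideal `I`;
* `resAut φ I : decomp φ I →* (R ⧸ I ≃+* R ⧸ I)` : the induced action on the residue ring;
* `existsUnique_ring` : for maximal ideals `𝔪 i` (`i : ι`) representing the `G`-orbits on the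
  maximal spectrum, every family `f i : G → R ⧸ 𝔪 i` with `f i (s g) = s • f i g`
  (`s ∈ decomp φ (𝔪 i)`) is `g ↦ (g • b mod 𝔪 i)` for a unique `b : R`, i.e.
  `R ≃ ∏ᵢ CoInd_{D_i}^G (R ⧸ 𝔪 i)`;
* `existsUnique_units` : the same for units, i.e. `Rˣ ≃ ∏ᵢ CoInd_{D_i}^G (R ⧸ 𝔪 i)ˣ`.
-/

set_option autoImplicit false

namespace Fermat.Agent.S55.G.LocH897

variable {G R : Type} [Group G] [CommRing R] (φ : G →* (R ≃+* R))

/-- The decomposition group of an ideal `I`: the stabiliser of `I` under the action `φ`. -/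
def decomp (I : Ideal R) : Subgroup G where
  carrier := {g | ∀ x, φ g x ∈ I ↔ x ∈ I}
  one_mem' := by intro x; simp
  mul_mem' := by
    intro a b ha hb x
    have ha' : ∀ x, φ a x ∈ I ↔ x ∈ I := ha
    have hb' : ∀ x, φ b x ∈ I ↔ x ∈ I := hb
    show φ (a * b) x ∈ I ↔ x ∈ I
    rw [map_mul, RingAut.mul_apply, ha', hb']
  inv_mem' := by
    intro a ha x
    have ha' : ∀ x, φ a x ∈ I ↔ x ∈ I := ha
    show φ a⁻¹ x ∈ I ↔ x ∈ I
    rw [← ha' (φ a⁻¹ x), ← RingAut.mul_apply, ← map_mul, mul_inv_cancel, map_one,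
      RingAut.one_apply]

lemma mem_decomp {I : Ideal R} {g : G} : g ∈ decomp φ I ↔ ∀ x, φ g x ∈ I ↔ x ∈ I := Iff.rfl

lemma map_eq_of_mem_decomp {I : Ideal R} {g : G} (hg : g ∈ decomp φ I) :
    I = I.map ((φ g : R ≃+* R) : R →+* R) := by
  ext y
  constructor
  · intro hy
    have : (φ g) ((φ g).symm y) ∈ I.map ((φ g : R ≃+* R) : R →+* R) :=
      Ideal.mem_map_of_mem _ (((mem_decomp φ).1 hg _).1 (by simpa using hy))
    simpa using this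
  · intro hy
    have hle : I.map ((φ g : R ≃+* R) : R →+* R) ≤ I := by
      rw [Ideal.map_le_iff_le_comap]
      intro x hx
      exact ((mem_decomp φ).1 hg x).2 hx
    exact hle hy

/-- The action of the decomposition group on the residue ring `R ⧸ I`. -/
def resAut (I : Ideal R) : decomp φ I →* (R ⧸ I ≃+* R ⧸ I) where
  toFun s := Ideal.quotientEquiv I I (φ s) (map_eq_of_mem_decomp φ s.2)
  map_one' := by
    ext x
    obtain ⟨x, rfl⟩ := Ideal.Quotient.mk_surjective x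
    simp
  map_mul' s t := by
    ext x
    obtain ⟨x, rfl⟩ := Ideal.Quotient.mk_surjective x
    simp

@[simp] lemma resAut_mk (I : Ideal R) (s : decomp φ I) (x : R) :
    resAut φ I s (Ideal.Quotient.mk I x) = Ideal.Quotient.mk I (φ s x) := by
  simp [resAut]

lemma resAut_mul_apply (I : Ideal R) (s t : decomp φ I) (x : R ⧸ I) :
    resAut φ I (s * t) x = resAut φ I s (resAut φ I t x) := by
  rw [map_mul, RingAut.mul_apply]

/-- Translating membership: `x ∈ g⁻¹ I ↔ g x ∈ I`. -/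
lemma apply_apply_inv (g : G) (x : R) :
    φ g (φ g⁻¹ x) = x := by
  rw [← RingAut.mul_apply, ← map_mul, mul_inv_cancel, map_one, RingAut.one_apply]

lemma apply_inv_apply (g : G) (x : R) : φ g⁻¹ (φ g x) = x := by
  rw [← RingAut.mul_apply, ← map_mul, inv_mul_cancel, map_one, RingAut.one_apply]

section Main

variable [IsArtinianRing R] [IsReduced R]

/-- In a reduced Artinian ring, an element lying in all maximal ideals is zero. -/
lemma eq_zero_of_forall_mem_maximal (x : R) (h : ∀ 𝔫 : Ideal R, 𝔫.IsMaximal → x ∈ 𝔫) :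
    x = 0 := by
  apply (IsArtinianRing.equivPi R).injective
  funext 𝔫
  rw [IsArtinianRing.equivPi_apply, map_zero, Pi.zero_apply]
  exact Ideal.Quotient.eq_zero_iff_mem.2 (h 𝔫.asIdeal 𝔫.isMaximal)

/-- Chinese remainder theorem in a reduced Artinian ring. -/
lemma exists_forall_sub_mem_maximal (a : ∀ 𝔫 : Ideal R, 𝔫.IsMaximal → R) :
    ∃ b : R, ∀ (𝔫 : Ideal R) (h𝔫 : 𝔫.IsMaximal), b - a 𝔫 h𝔫 ∈ 𝔫 := by
  refine ⟨(IsArtinianRing.equivPi R).symm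
    (fun 𝔫 => Ideal.Quotient.mk 𝔫.asIdeal (a 𝔫.asIdeal 𝔫.isMaximal)), fun 𝔫 h𝔫 => ?_⟩
  have h := congrFun ((IsArtinianRing.equivPi R).apply_symm_apply
    (fun 𝔫 => Ideal.Quotient.mk 𝔫.asIdeal (a 𝔫.asIdeal 𝔫.isMaximal))) ⟨𝔫, h𝔫⟩
  rw [IsArtinianRing.equivPi_apply] at h
  exact Ideal.Quotient.eq.1 h

variable {ι : Type} (𝔪 : ι → Ideal R)

/-- **Semi-local decomposition, ring level.**  If the maximal ideals `𝔪 i` represent the
`G`-orbits on the maximal spectrum of the reduced Artinian ring `R`, then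
`R ≃ ∏ᵢ CoInd_{D_i}^G (R ⧸ 𝔪 i)` via `b ↦ (g ↦ g • b mod 𝔪 i)`. -/
theorem existsUnique_ring (hmax𝔪 : ∀ i, (𝔪 i).IsMaximal)
    (hcover : ∀ 𝔫 : Ideal R, 𝔫.IsMaximal → ∃ i g, ∀ x, x ∈ 𝔫 ↔ φ g x ∈ 𝔪 i)
    (hdisj : ∀ i j g, (∀ x, x ∈ 𝔪 j ↔ φ g x ∈ 𝔪 i) → i = j)
    (f : ∀ i, G → R ⧸ 𝔪 i)
    (hf : ∀ i (s : decomp φ (𝔪 i)) g, f i (s * g) = resAut φ (𝔪 i) s (f i g)) :
    ∃! b : R, ∀ i g, Ideal.Quotient.mk (𝔪 i) (φ g b) = f i g := by
  classical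
  -- uniqueness
  have huniq : ∀ b b' : R, (∀ i g, Ideal.Quotient.mk (𝔪 i) (φ g b) = f i g) →
      (∀ i g, Ideal.Quotient.mk (𝔪 i) (φ g b') = f i g) → b = b' := by
    intro b b' hb hb'
    rw [← sub_eq_zero]
    apply eq_zero_of_forall_mem_maximal
    intro 𝔫 h𝔫
    obtain ⟨i, g, hig⟩ := hcover 𝔫 h𝔫
    rw [hig, map_sub]
    exact Ideal.Quotient.eq.1 ((hb i g).trans (hb' i g).symm)
  -- existence
  choose ci cg hc using hcover
  have hlift : ∀ i g, ∃ r : R, Ideal.Quotient.mk (𝔪 i) r = f i g :=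
    fun i g => Ideal.Quotient.mk_surjective _
  choose r hr using hlift
  obtain ⟨b, hb⟩ := exists_forall_sub_mem_maximal
    (fun 𝔫 h𝔫 => φ (cg 𝔫 h𝔫)⁻¹ (r (ci 𝔫 h𝔫) (cg 𝔫 h𝔫)))
  have key : ∀ 𝔫 : Ideal R, 𝔫.IsMaximal → ∃ j g, (∀ x, x ∈ 𝔫 ↔ φ g x ∈ 𝔪 j) ∧
      Ideal.Quotient.mk (𝔪 j) (φ g b) = f j g := by
    intro 𝔫 h𝔫
    refine ⟨ci 𝔫 h𝔫, cg 𝔫 h𝔫, hc 𝔫 h𝔫, ?_⟩
    rw [← hr]
    apply Ideal.Quotient.eq.2
    have h1 := (hc 𝔫 h𝔫 _).1 (hb 𝔫 h𝔫)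
    rwa [map_sub, apply_apply_inv φ] at h1
  have hbprop : ∀ i g, Ideal.Quotient.mk (𝔪 i) (φ g b) = f i g := by
    intro i g'
    have hmax : (Ideal.comap ((φ g' : R ≃+* R) : R →+* R) (𝔪 i)).IsMaximal :=
      haveI := hmax𝔪 i
      Ideal.comap_isMaximal_of_surjective _ (φ g').surjective
    obtain ⟨j, g, hjg, hval⟩ := key _ hmax
    have hmem : ∀ x, φ g' x ∈ 𝔪 i ↔ φ g x ∈ 𝔪 j := fun x => by
      rw [← hjg x]; rfl
    obtain rfl : j = i := by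
      refine hdisj j i (g * g'⁻¹) fun y => ?_
      rw [map_mul, RingAut.mul_apply, ← hmem, apply_apply_inv φ]
    have hs : g' * g⁻¹ ∈ decomp φ (𝔪 j) := by
      rw [mem_decomp]
      intro y
      rw [map_mul, RingAut.mul_apply, hmem, apply_apply_inv φ]
    have hg' : g' = ((⟨g' * g⁻¹, hs⟩ : decomp φ (𝔪 j)) : G) * g := by simp
    rw [hg', hf, ← hval, resAut_mk, ← hg', map_mul, RingAut.mul_apply, apply_inv_apply φ]
  exact ⟨b, hbprop, fun b' hb' => huniq b' b hb' hbprop⟩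

/-- **Semi-local decomposition, unit level.**  If the maximal ideals `𝔪 i` represent the
`G`-orbits on the maximal spectrum of the reduced Artinian ring `R`, then
`Rˣ ≃ ∏ᵢ CoInd_{D_i}^G (R ⧸ 𝔪 i)ˣ` via `b ↦ (g ↦ g • b mod 𝔪 i)`. -/
theorem existsUnique_units (hmax𝔪 : ∀ i, (𝔪 i).IsMaximal)
    (hcover : ∀ 𝔫 : Ideal R, 𝔫.IsMaximal → ∃ i g, ∀ x, x ∈ 𝔫 ↔ φ g x ∈ 𝔪 i)
    (hdisj : ∀ i j g, (∀ x, x ∈ 𝔪 j ↔ φ g x ∈ 𝔪 i) → i = j)
    (f : ∀ i, G → (R ⧸ 𝔪 i)ˣ)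
    (hf : ∀ i (s : decomp φ (𝔪 i)) g,
      ((f i (s * g) : (R ⧸ 𝔪 i)ˣ) : R ⧸ 𝔪 i) = resAut φ (𝔪 i) s (f i g)) :
    ∃! b : Rˣ, ∀ i g, Ideal.Quotient.mk (𝔪 i) (φ g (b : R)) = (f i g : R ⧸ 𝔪 i) := by
  have hfu : ∀ i (s : decomp φ (𝔪 i)) g,
      f i (s * g) = Units.map ((resAut φ (𝔪 i) s : R ⧸ 𝔪 i ≃+* R ⧸ 𝔪 i) :
        R ⧸ 𝔪 i →* R ⧸ 𝔪 i) (f i g) := fun i s g => Units.ext (hf i s g)
  have hf' : ∀ i (s : decomp φ (𝔪 i)) g,
      (((f i (s * g))⁻¹ : (R ⧸ 𝔪 i)ˣ) : R ⧸ 𝔪 i) =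
        resAut φ (𝔪 i) s (((f i g)⁻¹ : (R ⧸ 𝔪 i)ˣ) : R ⧸ 𝔪 i) := fun i s g => by
    rw [hfu, ← map_inv]; rfl
  obtain ⟨b, hb, hbu⟩ := existsUnique_ring φ 𝔪 hmax𝔪 hcover hdisj
    (fun i g => (f i g : R ⧸ 𝔪 i)) hf
  obtain ⟨b', hb', -⟩ := existsUnique_ring φ 𝔪 hmax𝔪 hcover hdisj
    (fun i g => (((f i g)⁻¹ : (R ⧸ 𝔪 i)ˣ) : R ⧸ 𝔪 i)) hf'
  obtain ⟨c, -, hcu⟩ := existsUnique_ring φ 𝔪 hmax𝔪 hcover hdisj
    (fun i _ => (1 : R ⧸ 𝔪 i)) (fun i s g => by simp)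
  have h1 : b * b' = 1 := by
    rw [hcu (b * b') (fun i g => by
      simp only [map_mul]; rw [hb i g, hb' i g]; exact Units.mul_inv _),
      hcu 1 (fun i g => by simp)]
  refine ⟨⟨b, b', h1, by rw [mul_comm]; exact h1⟩, fun i g => hb i g, fun u hu => ?_⟩
  exact Units.ext (hbu (u : R) hu)

end Main

/-! ### A canonical system of orbit representatives -/

section Reps

/-- The orbit relation on the maximal spectrum: `𝔫 ∼ 𝔫'` iff `𝔫 = g⁻¹ 𝔫'` for some `g`. -/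
def specSetoid : Setoid (MaximalSpectrum R) where
  r a b := ∃ g : G, ∀ x, x ∈ a.asIdeal ↔ φ g x ∈ b.asIdeal
  iseqv :=
    { refl := fun a => ⟨1, fun x => by simp⟩
      symm := by
        rintro a b ⟨g, hg⟩
        refine ⟨g⁻¹, fun x => ?_⟩
        rw [hg, apply_apply_inv φ]
      trans := by
        rintro a b c ⟨g, hg⟩ ⟨h, hh⟩
        refine ⟨h * g, fun x => ?_⟩
        rw [hg, hh, map_mul, RingAut.mul_apply] }

/-- The set of `G`-orbits on the maximal spectrum of `R`. -/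
def OrbitIdx : Type := Quotient (specSetoid φ)

instance [IsArtinianRing R] : Finite (OrbitIdx φ) :=
  inferInstanceAs (Finite (Quotient (specSetoid φ)))

/-- A representative maximal ideal in each orbit. -/
noncomputable def orbitRep (o : OrbitIdx φ) : Ideal R :=
  (Quotient.out (s := specSetoid φ) o).asIdeal

lemma orbitRep_isMaximal (o : OrbitIdx φ) : (orbitRep φ o).IsMaximal :=
  (Quotient.out (s := specSetoid φ) o).isMaximal

lemma orbitRep_cover (𝔫 : Ideal R) (h𝔫 : 𝔫.IsMaximal) :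
    ∃ (o : OrbitIdx φ) (g : G), ∀ x, x ∈ 𝔫 ↔ φ g x ∈ orbitRep φ o := by
  refine ⟨Quotient.mk (specSetoid φ) ⟨𝔫, h𝔫⟩, ?_⟩
  have h := Quotient.mk_out (s := specSetoid φ) ⟨𝔫, h𝔫⟩
  obtain ⟨g, hg⟩ := (specSetoid φ).symm h
  exact ⟨g, hg⟩

lemma orbitRep_disj (i j : OrbitIdx φ) (g : G)
    (h : ∀ x, x ∈ orbitRep φ j ↔ φ g x ∈ orbitRep φ i) : i = j := by
  have hr : (specSetoid φ).r (Quotient.out (s := specSetoid φ) j)
      (Quotient.out (s := specSetoid φ) i) := ⟨g, h⟩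
  have := Quotient.sound (s := specSetoid φ) hr
  exact (Quotient.out_eq (s := specSetoid φ) i).symm.trans
    (this.symm.trans (Quotient.out_eq (s := specSetoid φ) j))

end Reps

end Fermat.Agent.S55.G.LocH897
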