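import Fermat.Agent.S55.T.Spec3
import Fermat.Agent.S55.G.LocH897.Alg

/-!
# S55 / layer G / leaf G-LOC (helper897), part 2: cohomology of semi-local unit groups

* `semilocal_bijective` : **semi-local Shapiro** (recognition form, several subgroups).  If
  `B : Rep k G`, subgroups `S i ≤ G`, `A i : Rep k (S i)` and `π i : Res_{S i} B ⟶ A i`
  (`i : ι` finite) are such that `b ↦ (g ↦ π i (g • b))ᵢ` is a bijection of `B` onto
  `∏ᵢ Coind_{S i}^G (A i)`, then
  `Hⁿ(G, B) → ∏ᵢ Hⁿ(S i, A i)`, `x ↦ (π i ∘ res x)ᵢ` is bijective.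
  (From the T-layer specs `ShapiroExplicitSpec` and `FiniteProdSpec`.)
* `resUnitsRepr φ I` : `(R ⧸ I)ˣ` as a representation of the decomposition group of `I`;
* `locProj` : the localisation morphism `Res_{D} Rˣ ⟶ (R ⧸ I)ˣ`;
* `gLoc_bijective` : **G-LOC**: for a reduced Artinian ring `R` with `G`-action and maximal ideals
  `𝔪 i` representing the `G`-orbits on the maximal spectrum, the localisation maps give a
  bijection `Hⁿ(G, Rˣ) → ∏ᵢ Hⁿ(D_{𝔪 i}, (R ⧸ 𝔪 i)ˣ)`.
-/

set_option autoImplicit false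

open CategoryTheory groupCohomology

namespace Fermat.Agent.S55.G.LocH897

open Fermat.Agent.S55

/-! ### Semi-local Shapiro -/

section Semilocal

variable {k G : Type} [CommRing k] [Group G]

/-- `Hⁿ(S, π) = Hⁿ(G, π̃) ≫ sh`, where `π̃ : B ⟶ Coind A` is the adjoint of `π : Res B ⟶ A`. -/
lemma map_eq_coeffMap_comp (S : Subgroup G) (A : Rep.{0} k S) (B : Rep.{0} k G)
    (π : Rep.res S.subtype B ⟶ A) (n : ℕ) :
    groupCohomology.map S.subtype π n =
      T.coeffMap (Rep.resCoindToHom S.subtype B A π) n ≫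
        groupCohomology.map S.subtype (T.coindEv S A) n := by
  rw [← groupCohomology.map_comp]
  have h : (Rep.resFunctor S.subtype).map (Rep.resCoindToHom S.subtype B A π) ≫ T.coindEv S A
      = π := by
    have h1 := (Rep.resCoindAdjunction k S.subtype).homEquiv_counit
      (X := B) (Y := A) (g := Rep.resCoindToHom S.subtype B A π)
    rw [T.coindEv, ← h1]
    exact ((Rep.resCoindAdjunction k S.subtype).homEquiv B A).symm_apply_apply π
  exact groupCohomology.map_congr rfl (by rw [h]) n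

/-- **Semi-local Shapiro** (recognition form, several subgroups). -/
theorem semilocal_bijective (h8 : T.ShapiroExplicitSpec) (h9 : T.FiniteProdSpec)
    (ι : Type) [Finite ι] (S : ι → Subgroup G)
    (A : ∀ i, Rep.{0} k (S i)) (B : Rep.{0} k G) (π : ∀ i, Rep.res (S i).subtype B ⟶ A i)
    (hrec : ∀ f : ∀ i, G → (A i).V,
      (∀ i (s : S i) (g : G), f i (s * g) = (A i).ρ s (f i g)) →
      ∃! b : B.V, ∀ i g, (π i).hom (B.ρ g b) = f i g) (n : ℕ) :
    Function.Bijective (fun (x : groupCohomology B n) (i : ι) =>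
      (groupCohomology.map (S i).subtype (π i) n).hom x) := by
  -- the adjoint maps `p i : B ⟶ Coind (A i)`
  set p : ∀ i, B ⟶ Rep.coind (S i).subtype (A i) :=
    fun i => Rep.resCoindToHom (S i).subtype B (A i) (π i) with hp
  have hpb : Function.Bijective (fun (c : B.V) (i : ι) => (p i).hom c) := by
    constructor
    · intro b b' hbb'
      have hcond : ∀ i (s : S i) (g : G),
          (π i).hom (B.ρ (s * g) b') = (A i).ρ s ((π i).hom (B.ρ g b')) := by
        intro i s g
        rw [map_mul]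
        exact Rep.hom_comm_apply (π i) s (B.ρ g b')
      obtain ⟨c, -, hc⟩ := hrec (fun i g => (π i).hom (B.ρ g b')) hcond
      rw [hc b' (fun _ _ => rfl)]
      refine hc b (fun i g => ?_)
      have := congrArg (fun y : ↥(Representation.coindV (S i).subtype (A i).ρ) => y.1 g)
        (congrFun hbb' i)
      exact this
    · intro y
      obtain ⟨b, hb, -⟩ := hrec (fun i g => (y i).1 g) (fun i s g => (y i).2 s g)
      refine ⟨b, funext fun i => Subtype.ext (funext fun g => ?_)⟩
      exact hb i g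
  have h1 := h9 k G ι (fun i => Rep.coind (S i).subtype (A i)) B p hpb n
  have h2 : Function.Bijective
      (fun (z : ∀ i, groupCohomology (Rep.coind (S i).subtype (A i)) n) (i : ι) =>
        (groupCohomology.map (S i).subtype (T.coindEv (S i) (A i)) n).hom (z i)) := by
    constructor
    · intro z z' hzz'
      funext i
      exact (h8 k G (S i) (A i) n).1 (congrFun hzz' i)
    · intro w
      choose z hz using fun i => (h8 k G (S i) (A i) n).2 (w i)
      exact ⟨z, funext hz⟩
  have hcomp : (fun (x : groupCohomology B n) (i : ι) =>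
      (groupCohomology.map (S i).subtype (π i) n).hom x) =
      (fun (z : ∀ i, groupCohomology (Rep.coind (S i).subtype (A i)) n) (i : ι) =>
        (groupCohomology.map (S i).subtype (T.coindEv (S i) (A i)) n).hom (z i)) ∘
      (fun (x : groupCohomology B n) (i : ι) => (T.coeffMap (p i) n).hom x) := by
    funext x i
    rw [map_eq_coeffMap_comp]
    rfl
  rw [hcomp]
  exact h2.comp h1

end Semilocal

/-! ### Unit groups of residue rings as representations of decomposition groups -/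

section Units

variable {G R : Type} [Group G] [CommRing R]

/-- The `ℤ`-linear representation of `G` on `Additive Rˣ` attached to `φ : G →* (R ≃+* R)`. -/
def uRepr (φ : G →* (R ≃+* R)) : Representation ℤ G (Additive Rˣ) where
  toFun g := (MonoidHom.toAdditive (Units.map ((φ g : R ≃+* R) : R →* R))).toIntLinearMap
  map_one' := by
    refine LinearMap.ext fun x => ?_
    have h : Units.map ((φ 1 : R ≃+* R) : R →* R) x.toMul = x.toMul := Units.ext (by simp)
    exact congrArg Additive.ofMul h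
  map_mul' g h := by
    refine LinearMap.ext fun x => ?_
    have h : Units.map ((φ (g * h) : R ≃+* R) : R →* R) x.toMul =
        Units.map ((φ g : R ≃+* R) : R →* R) (Units.map ((φ h : R ≃+* R) : R →* R) x.toMul) :=
      Units.ext (by simp)
    exact congrArg Additive.ofMul h

lemma coe_uRepr_apply (φ : G →* (R ≃+* R)) (g : G) (x : Additive Rˣ) :
    (((uRepr φ g x).toMul : Rˣ) : R) = φ g ((x.toMul : Rˣ) : R) := rfl

variable (φ : G →* (R ≃+* R))

/-- `(R ⧸ I)ˣ` (additively) as a representation of the decomposition group of `I`. -/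
def resUnitsRepr (I : Ideal R) : Representation ℤ (decomp φ I) (Additive (R ⧸ I)ˣ) :=
  uRepr (resAut φ I)

lemma coe_resUnitsRepr_apply (I : Ideal R) (s : decomp φ I) (x : Additive (R ⧸ I)ˣ) :
    (((resUnitsRepr φ I s x).toMul : (R ⧸ I)ˣ) : R ⧸ I) =
      resAut φ I s ((x.toMul : (R ⧸ I)ˣ) : R ⧸ I) := rfl

/-- `(R ⧸ I)ˣ` as an object of `Rep ℤ (decomp φ I)`. -/
abbrev ResUnitsRep (I : Ideal R) : Rep.{0} ℤ (decomp φ I) := Rep.of (resUnitsRepr φ I)

variable (ρ : Representation ℤ G (Additive Rˣ))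
  (hρ : ∀ (g : G) (x : Additive Rˣ), (((ρ g x).toMul : Rˣ) : R) = φ g ((x.toMul : Rˣ) : R))

/-- The reduction map `Rˣ → (R ⧸ I)ˣ`, additively. -/
def locLin (I : Ideal R) : Additive Rˣ →ₗ[ℤ] Additive (R ⧸ I)ˣ :=
  (MonoidHom.toAdditive (Units.map ((Ideal.Quotient.mk I : R →+* R ⧸ I) : R →* R ⧸ I))).toIntLinearMap

lemma coe_locLin_apply (I : Ideal R) (x : Additive Rˣ) :
    (((locLin I x).toMul : (R ⧸ I)ˣ) : R ⧸ I) = Ideal.Quotient.mk I ((x.toMul : Rˣ) : R) := rfl

/-- The localisation morphism `Res_{D_I} Rˣ ⟶ (R ⧸ I)ˣ` of representations of the decomposition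
group `D_I`. -/
def locProj (I : Ideal R) : Rep.res (decomp φ I).subtype (Rep.of ρ) ⟶ ResUnitsRep φ I :=
  Rep.ofHom
    { toLinearMap := locLin I
      isIntertwining' := fun s => by
        refine LinearMap.ext fun x => ?_
        apply Additive.toMul.injective
        apply Units.ext
        show (((locLin I (ρ (s : G) x)).toMul : (R ⧸ I)ˣ) : R ⧸ I) =
          (((resUnitsRepr φ I s (locLin I x)).toMul : (R ⧸ I)ˣ) : R ⧸ I)
        rw [coe_locLin_apply, hρ, coe_resUnitsRepr_apply, coe_locLin_apply, resAut_mk] }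

lemma locProj_hom_apply (I : Ideal R) (x : Additive Rˣ) :
    (locProj φ ρ hρ I).hom x = locLin I x := rfl

/-- **G-LOC.**  For a reduced Artinian ring `R` with an action `φ` of `G` and maximal ideals
`𝔪 i` (`i : ι`) representing the `G`-orbits on the maximal spectrum, the localisation maps
(restriction to the decomposition group followed by reduction modulo `𝔪 i`) induce a bijection
`Hⁿ(G, Rˣ) → ∏ᵢ Hⁿ(D_{𝔪 i}, (R ⧸ 𝔪 i)ˣ)`. -/
theorem gLoc_bijective (h8 : T.ShapiroExplicitSpec) (h9 : T.FiniteProdSpec)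
    [IsArtinianRing R] [IsReduced R] {ι : Type} [Finite ι] (𝔪 : ι → Ideal R)
    (hmax𝔪 : ∀ i, (𝔪 i).IsMaximal)
    (hcover : ∀ 𝔫 : Ideal R, 𝔫.IsMaximal → ∃ i g, ∀ x, x ∈ 𝔫 ↔ φ g x ∈ 𝔪 i)
    (hdisj : ∀ i j g, (∀ x, x ∈ 𝔪 j ↔ φ g x ∈ 𝔪 i) → i = j) (n : ℕ) :
    Function.Bijective (fun (x : groupCohomology (Rep.of ρ) n) (i : ι) =>
      (groupCohomology.map (decomp φ (𝔪 i)).subtype (locProj φ ρ hρ (𝔪 i)) n).hom x) := by
  refine semilocal_bijective h8 h9 ι (fun i => decomp φ (𝔪 i))
    (fun i => ResUnitsRep φ (𝔪 i)) (Rep.of ρ) (fun i => locProj φ ρ hρ (𝔪 i)) ?_ n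
  intro f hf
  obtain ⟨b, hb, hbu⟩ := existsUnique_units φ 𝔪 hmax𝔪 hcover hdisj
    (fun i g => (f i g).toMul) (fun i s g => by
      have := congrArg (fun y : Additive (R ⧸ 𝔪 i)ˣ => ((y.toMul : (R ⧸ 𝔪 i)ˣ) : R ⧸ 𝔪 i))
        (hf i s g)
      exact this)
  refine ⟨Additive.ofMul b, fun i g => ?_, fun c hc => ?_⟩
  · apply Additive.toMul.injective
    apply Units.ext
    show (((locLin (𝔪 i) (ρ g (Additive.ofMul b))).toMul : (R ⧸ 𝔪 i)ˣ) : R ⧸ 𝔪 i) = _
    rw [coe_locLin_apply, hρ]
    exact hb i g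
  · apply Additive.toMul.injective
    refine hbu c.toMul fun i g => ?_
    have := congrArg (fun y : Additive (R ⧸ 𝔪 i)ˣ => ((y.toMul : (R ⧸ 𝔪 i)ˣ) : R ⧸ 𝔪 i))
      (hc i g)
    have h2 : (((locLin (𝔪 i) (ρ g c)).toMul : (R ⧸ 𝔪 i)ˣ) : R ⧸ 𝔪 i) =
        ((Additive.toMul (α := (R ⧸ 𝔪 i)ˣ) (f i g) : (R ⧸ 𝔪 i)ˣ) : R ⧸ 𝔪 i) := this
    rw [coe_locLin_apply, hρ] at h2
    exact h2

/-- **G-LOC** with the canonical orbit representatives `orbitRep φ`. -/
theorem gLoc_bijective_orbitRep (h8 : T.ShapiroExplicitSpec) (h9 : T.FiniteProdSpec)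
    [IsArtinianRing R] [IsReduced R] (n : ℕ) :
    Function.Bijective (fun (x : groupCohomology (Rep.of ρ) n) (o : OrbitIdx φ) =>
      (groupCohomology.map (decomp φ (orbitRep φ o)).subtype
        (locProj φ ρ hρ (orbitRep φ o)) n).hom x) :=
  gLoc_bijective φ ρ hρ h8 h9 (orbitRep φ) (orbitRep_isMaximal φ) (orbitRep_cover φ)
    (orbitRep_disj φ) n

end Units

end Fermat.Agent.S55.G.LocH897
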