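import Fermat.Agent.S55.G.Spec
import Fermat.Agent.S55.G.LocH897.Coh
import Fermat.Agent.S55.G.LocH897.ASRing

/-!
# S55 / layer G / leaf G-LOC (helper897): `ShapiroJSpec`

`shapiroJ_of : T.ShapiroExplicitSpec → T.FiniteProdSpec → G.ShapiroJSpec`:
for a set `R` of representatives of the `G`-orbits of places above `S`, the localisation maps
`locMapJ` induce a bijection `Hⁿ(G, J_S(L)) → ∏_{𝔪 ∈ R} Hⁿ(D_𝔪, L_𝔪ˣ)`.
(No finiteness of `G` is used.)
-/

set_option autoImplicit false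
set_option linter.style.haveILetI false

open CategoryTheory groupCohomology
open scoped TensorProduct

namespace Fermat.Agent.S55.G.LocH897

open Fermat.Agent.S55 Fermat.Agent.S55.G

section

variable (S : Finset Nat.Primes) (Γ L : Type) [Group Γ] [Field L] [NumberField L]
  [MulSemiringAction Γ L]

lemma asRingAut_inv_apply (g : Γ) (x : AS S L) :
    asRingAut Γ S L g⁻¹ (asRingAut Γ S L g x) = x := by
  rw [← RingAut.mul_apply, ← map_mul, inv_mul_cancel, map_one, RingAut.one_apply]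

lemma asRingAut_apply_inv (g : Γ) (x : AS S L) :
    asRingAut Γ S L g (asRingAut Γ S L g⁻¹ x) = x := by
  rw [← RingAut.mul_apply, ← map_mul, mul_inv_cancel, map_one, RingAut.one_apply]

/-- `x ∈ g 𝔪 ↔ g⁻¹ x ∈ 𝔪`. -/
lemma mem_sPlaceSMul_iff' (g : Γ) (𝔪 : SPlace S L) (x : AS S L) :
    x ∈ (sPlaceSMul S Γ g 𝔪).asIdeal ↔ asRingAut Γ S L g⁻¹ x ∈ 𝔪.asIdeal :=
  mem_sPlaceSMul_iff S Γ g 𝔪 x

/-- Membership in helper421's decomposition group, in terms of elements. -/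
lemma mem_Gdecomp_iff (𝔪 : SPlace S L) (g : Γ) :
    g ∈ G.decomp S Γ 𝔪 ↔ ∀ x, asRingAut Γ S L g x ∈ 𝔪.asIdeal ↔ x ∈ 𝔪.asIdeal := by
  rw [G.mem_decomp_iff]
  constructor
  · intro h x
    have h1 := mem_sPlaceSMul_iff' S Γ L g 𝔪 (asRingAut Γ S L g x)
    rw [h, asRingAut_inv_apply] at h1
    exact h1
  · intro h
    refine MaximalSpectrum.ext (Ideal.ext fun x => ?_)
    rw [mem_sPlaceSMul_iff', ← h, asRingAut_apply_inv]

lemma Gdecomp_eq (𝔪 : SPlace S L) :
    G.decomp S Γ 𝔪 = LocH897.decomp (asRingAut Γ S L) 𝔪.asIdeal := by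
  ext g
  rw [mem_Gdecomp_iff, mem_decomp]

end

/-- **G-LOC.**  `ShapiroJSpec` from the T-layer specs T8 (`ShapiroExplicitSpec`) and T9a
(`FiniteProdSpec`). -/
theorem shapiroJ_of (h8 : T.ShapiroExplicitSpec) (h9 : T.FiniteProdSpec) : ShapiroJSpec := by
  intro S Γ L _ _ _ _ _ R hR n
  haveI := isReduced_AS S L
  haveI := isArtinianRing_AS S L
  refine semilocal_bijective h8 h9 (k := ℤ) (G := Γ) (ι := R) (fun r => G.decomp S Γ r.1)
    (fun r => LocRep S Γ r.1) (JRep Γ S L) (fun r => jToLocRepHom S Γ r.1) ?_ n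
  intro f hf
  -- translate to the abstract semi-local statement
  have hcover : ∀ 𝔫 : Ideal (AS S L), 𝔫.IsMaximal →
      ∃ (i : R) (g : Γ), ∀ x, x ∈ 𝔫 ↔ asRingAut Γ S L g x ∈ i.1.asIdeal := by
    intro 𝔫 h𝔫
    obtain ⟨r, ⟨hrR, g, hg⟩, -⟩ := hR ⟨𝔫, h𝔫⟩
    refine ⟨⟨r, hrR⟩, g⁻¹, fun x => ?_⟩
    have := mem_sPlaceSMul_iff' S Γ L g r x
    rw [hg] at this
    exact this
  have hdisj : ∀ (i j : R) (g : Γ),
      (∀ x, x ∈ j.1.asIdeal ↔ asRingAut Γ S L g x ∈ i.1.asIdeal) → i = j := by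
    intro i j g h
    obtain ⟨r, -, hru⟩ := hR j.1
    have hj : j.1 = r := hru j.1 ⟨j.2, 1, by
      refine MaximalSpectrum.ext (Ideal.ext fun x => ?_)
      rw [mem_sPlaceSMul_iff', inv_one, map_one, RingAut.one_apply]⟩
    have hi : i.1 = r := hru i.1 ⟨i.2, g⁻¹, by
      refine MaximalSpectrum.ext (Ideal.ext fun x => ?_)
      rw [mem_sPlaceSMul_iff', inv_inv, h]⟩
    exact Subtype.ext (hi.trans hj.symm)
  obtain ⟨b, hb, hbu⟩ := existsUnique_units (asRingAut Γ S L) (fun r : R => r.1.asIdeal)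
    (fun r => r.1.isMaximal) hcover hdisj
    (fun r g => Additive.toMul (α := (AS S L ⧸ r.1.asIdeal)ˣ) (f r g))
    (fun r s g => by
      have hs : (s : Γ) ∈ G.decomp S Γ r.1 := by rw [Gdecomp_eq]; exact s.2
      have := congrArg
        (fun y : Additive (AS S L ⧸ r.1.asIdeal)ˣ =>
          ((Additive.toMul y : (AS S L ⧸ r.1.asIdeal)ˣ) : AS S L ⧸ r.1.asIdeal))
        (hf r ⟨s, hs⟩ g)
      exact this)
  refine ⟨Additive.ofMul b, fun i g => ?_, fun c hc => ?_⟩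
  · apply Additive.toMul.injective
    apply Units.ext
    exact hb i g
  · apply Additive.toMul.injective
    refine hbu (Additive.toMul (α := (AS S L)ˣ) c) fun i g => ?_
    have := congrArg
      (fun y : Additive (AS S L ⧸ i.1.asIdeal)ˣ =>
        ((Additive.toMul y : (AS S L ⧸ i.1.asIdeal)ˣ) : AS S L ⧸ i.1.asIdeal))
      (hc i g)
    exact this

end Fermat.Agent.S55.G.LocH897
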