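import Fermat.Agent.S55.G.LocH897.TowJInv
import Fermat.Agent.S55.E1.H594.LevelProj

/-!
# S55 / G-ADAPTER, J-bridge (helper897), part 6: compatibilities

* `jTow_unitsDiag` : the bridge `J_S(F) → J_q(F)` sends the diagonal image of `u ∈ Fˣ`
  (`G.unitsDiag`) to the tower diagonal `Level.diag q` of `u` (via `levelUnitsIso`);
* `jTow_jMap` : for `F ≤ F'` the bridge intertwines the base change `G.jMap` with `Level.trJ`.
-/

set_option autoImplicit false
set_option linter.style.haveILetI false
set_option linter.unusedSectionVars false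

open scoped TensorProduct
open CategoryTheory

namespace Fermat.Agent.S55.G.LocH897

open Fermat.Agent.S55 Fermat.Agent.S55.Tow Fermat.Agent.S55.Bridge.H175 Fermat.Agent.S55.E1.H594
open Fermat.Agent.S55.G Fermat.Agent.S55.G.PL0H713

noncomputable section

variable {S : Finset Nat.Primes}

/-- The element of `ℚ̄` underlying a vector of `unitsQbar`. -/
def gval (x : unitsQbar.V) : Qbar :=
  ((Additive.toMul (show Additive Qbarˣ from x) : Qbarˣ) : Qbar)

lemma oval_embQbar (q : Nat.Primes) (x : unitsQbar.V) :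
    oval q (embQbar q x) = padicEmbedding (q : ℕ) (gval x) := rfl

lemma gval_ρ (σ : GQ) (x : unitsQbar.V) : gval (unitsQbar.ρ σ x) = σ (gval x) := rfl

section Diag

variable (L : Level S) (q : S)

lemma gval_levelUnits (u : Additive (L.F)ˣ) :
    gval (L.unitsCoe ((levelUnitsIso L).hom.hom u)) = (((u.toMul : (L.F)ˣ) : L.F) : Qbar) := rfl

/-- The bridge is compatible with the diagonal embeddings of `Fˣ`. -/
theorem jTow_unitsDiag (u : Additive (L.F)ˣ) :
    (jTow L q).hom (unitsDiag S L.F u) = (L.diag q.1).hom ((levelUnitsIso L).hom.hom u) := by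
  apply L.J_ext q.1
  intro g
  apply locCoe_oval_injective
  obtain ⟨σ, rfl⟩ := QuotientGroup.mk_surjective g
  rw [jTow_hom_apply, Jeval_jTowLin, oval_jTowFun, L.Jeval_diag, L.locCoe_embFun, oval_embQbar,
    L.units_ρ_coe, gval_ρ, gval_levelUnits]
  have h1 : (((unitsDiag S L.F u).toMul : (AS S L.F)ˣ) : AS S L.F) =
      asDiag S L.F ((u.toMul : (L.F)ˣ) : L.F) := rfl
  rw [h1, asRingAut_apply, asAut_asDiag, asDiag_apply, evQ_tmul_one, level_mk_smul]

end Diag

section Trans

variable {L L' : Level S} (h : L ≤ L') (q : S)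

/-- `evQ` is compatible with the base change `F ⊗ ℚ_S → F' ⊗ ℚ_S` and the Galois actions. -/
lemma evQ_asMap (g : L'.Gal) (r : AS S L.F) :
    letI := levelAlgebra h
    evQ L' q (asRingAut L'.Gal S L'.F g (asMap S L.F L'.F r)) =
      evQ L q (asRingAut L.Gal S L.F (Level.proj h g) r) := by
  letI := levelAlgebra h
  induction r using TensorProduct.induction_on with
  | zero => simp
  | tmul x y =>
    rw [asMap_tmul, asRingAut_apply, asAut_tmul, asRingAut_apply, asAut_tmul, evQ_tmul, evQ_tmul]
    have h1 : g • (algebraMap L.F L'.F x) = levelIncl h ((Level.proj h g) • x) :=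
      (levelIncl_proj_smul h g x).symm
    rw [h1, coe_levelIncl]
  | add a b ha hb => simp only [map_add, ha, hb]

/-- The bridge intertwines the base change `J_S(F) → J_S(F')` with `Level.trJ`. -/
theorem jTow_jMap (b : Additive (AS S L.F)ˣ) :
    letI := levelAlgebra h
    (jTow L' q).hom (jMap S L.F L'.F b) = (Level.trJ h q.1).hom ((jTow L q).hom b) := by
  letI := levelAlgebra h
  apply L'.J_ext q.1
  intro g
  apply locCoe_oval_injective
  rw [jTow_hom_apply, Jeval_jTowLin, oval_jTowFun, coe_jMap_apply, evQ_asMap h q g]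
  rfl

end Trans

section Cat

variable (L : Level S)

/-- `jTowInv q ≫ jTow q = 𝟙`. -/
theorem jTowInv_comp_jTow (q : S) : jTowInv L q ≫ jTow L q = 𝟙 (L.J q.1) := by
  ext x
  exact jTow_jTowInv_same L q x

/-- `jTowInv q ≫ jTow q' = 0` for `q' ≠ q`. -/
theorem jTowInv_comp_jTow_of_ne {q q' : S} (h : q' ≠ q) : jTowInv L q ≫ jTow L q' = 0 := by
  ext x
  exact jTow_jTowInv_ne L q h x

/-- The decomposition group of the place `placeQ L q` (in the sense of `G/DefsLocal.lean`) is the
image of the tower decomposition group `L.Dec q`. -/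
theorem decomp_placeQ (q : S) :
    _root_.Fermat.Agent.S55.G.decomp S L.Gal (placeQ L q) = (L.decHom q.1).range := by
  ext s
  rw [mem_Gdecomp_iff]
  constructor
  · intro hs
    obtain ⟨τ, hτ⟩ := exists_locGal_eq L q s (fun x => by
      rw [← mem_placeQ, ← mem_placeQ]
      exact hs x)
    exact ⟨QuotientGroup.mk τ, hτ⟩
  · rintro ⟨d, rfl⟩ x
    obtain ⟨τ, rfl⟩ := QuotientGroup.mk_surjective d
    rw [mem_placeQ, mem_placeQ, ← locGal_eq_decHom, evQ_equivariant]
    exact map_eq_zero_iff _ (toAut q.1 τ).injective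

end Cat

end

end Fermat.Agent.S55.G.LocH897
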