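import Fermat.Agent.S55.G.LocH897.TowJCompat
import Fermat.Agent.S55.G.Rec.Tow.Defs
import Fermat.Agent.S55.T.SumH635

/-!
# S55 / J-bridge (helper897), part 7: classes concentrated at one prime

For `r ∈ S` and `S' = S ∖ {r}` the projection `J_S(F) → J_{S'}(F)` (`G.jRes`) has a section
`jSec`, and `J_S(F) = J_r(F) × J_{S'}(F)`:

* `extA : 𝔸_{S'}(F) → 𝔸_S(F)` : extension by zero (linear, multiplicative, equivariant),
  `asRes_extA`, `extA_asRes`;
* `jSec L r : G.JRep Γ S' F ⟶ G.JRep Γ S F` : extension by `1` at `r`;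
* `jTow_comp_jTowInv_add : jTow L r ≫ jTowInv L r + jRes ≫ jSec = 𝟙`;
* `eq_of_jRes_eq_zero` : a class `y ∈ Hⁿ(Gal(F/ℚ), J_S(F))` whose image in
  `Hⁿ(Gal(F/ℚ), J_{S∖{r}}(F))` vanishes is the image of its `r`-component:
  `y = (jTowInv r)_* ((jTow r)_* y)`; in particular `(jTow q)_* y = 0` for `q ≠ r`
  (`jTow_eq_zero_of_jRes_eq_zero`) and `y = 0` as soon as `(jTow r)_* y = 0`.
-/

set_option autoImplicit false
set_option linter.style.haveILetI false
set_option linter.unusedSectionVars false

open scoped TensorProduct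
open CategoryTheory

namespace Fermat.Agent.S55.G.LocH897

open Fermat.Agent.S55 Fermat.Agent.S55.Tow Fermat.Agent.S55.Bridge.H175 Fermat.Agent.S55.E1.H594
open Fermat.Agent.S55.G Fermat.Agent.S55.G.PL0H713

noncomputable section

/-! ### Extension by zero -/

section Ext

variable (S S' : Finset Nat.Primes)

open Classical in
/-- Extension by zero `ℚ_{S'} → ℚ_S`. -/
def ext0 : QS S' →ₗ[ℚ] QS S where
  toFun y := (QS.toPi S).symm
    (fun q : S => if hq : q.1 ∈ S' then QS.toPi S' y ⟨q.1, hq⟩ else 0)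
  map_add' y z := by
    apply QS_ext
    intro q
    simp only [AlgEquiv.apply_symm_apply, map_add, Pi.add_apply]
    split_ifs <;> simp
  map_smul' c y := by
    apply QS_ext
    intro q
    simp only [AlgEquiv.apply_symm_apply, map_smul, Pi.smul_apply, RingHom.id_apply]
    split_ifs <;> simp

variable {S S'}

lemma ext0_apply_mem (y : QS S') (q : S) (hq : q.1 ∈ S') :
    QS.toPi S (ext0 S S' y) q = QS.toPi S' y ⟨q.1, hq⟩ := by
  simp [ext0, hq]

lemma ext0_apply_not_mem (y : QS S') (q : S) (hq : q.1 ∉ S') :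
    QS.toPi S (ext0 S S' y) q = 0 := by
  simp [ext0, hq]

lemma ext0_mul (y z : QS S') : ext0 S S' (y * z) = ext0 S S' y * ext0 S S' z := by
  apply QS_ext
  intro q
  have hR : QS.toPi S (ext0 S S' y * ext0 S S' z) q =
      QS.toPi S (ext0 S S' y) q * QS.toPi S (ext0 S S' z) q := by
    rw [map_mul (QS.toPi S)]
    rfl
  rw [hR]
  by_cases hq : q.1 ∈ S'
  · rw [ext0_apply_mem _ q hq, ext0_apply_mem _ q hq, ext0_apply_mem _ q hq,
      map_mul (QS.toPi S')]
    rfl
  · rw [ext0_apply_not_mem _ q hq, ext0_apply_not_mem _ q hq, zero_mul]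

lemma res_ext0 (h : S' ⊆ S) (y : QS S') : QS.res h (ext0 S S' y) = y := by
  apply QS_ext
  intro q
  rw [QS.res_apply, ext0_apply_mem y ⟨q.1, h q.2⟩ q.2]

variable (S S') (F : Type) [Field F] [CharZero F]

/-- Extension by zero `𝔸_{S'}(F) → 𝔸_S(F)`. -/
def extA : AS S' F →ₗ[ℚ] AS S F := TensorProduct.map LinearMap.id (ext0 S S')

variable {S S'}

@[simp] lemma extA_tmul (x : F) (y : QS S') :
    extA S S' F (x ⊗ₜ[ℚ] y) = x ⊗ₜ[ℚ] ext0 S S' y := rfl

lemma extA_mul (a b : AS S' F) : extA S S' F (a * b) = extA S S' F a * extA S S' F b := by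
  induction a using TensorProduct.induction_on with
  | zero => simp
  | add a a' ha ha' => rw [add_mul, map_add, ha, ha', map_add, add_mul]
  | tmul x y =>
    induction b using TensorProduct.induction_on with
    | zero => simp
    | add b b' hb hb' => rw [mul_add, map_add, hb, hb', map_add, mul_add]
    | tmul x' y' =>
      rw [Algebra.TensorProduct.tmul_mul_tmul, extA_tmul, extA_tmul, extA_tmul,
        Algebra.TensorProduct.tmul_mul_tmul, ext0_mul]

lemma asRes_extA (h : S' ⊆ S) (a : AS S' F) : asRes h F (extA S S' F a) = a := by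
  induction a using TensorProduct.induction_on with
  | zero => simp
  | add a a' ha ha' => rw [map_add, map_add, ha, ha']
  | tmul x y => rw [extA_tmul, asRes_tmul, res_ext0]

variable {Γ : Type} [Group Γ] [MulSemiringAction Γ F]

lemma extA_asAut (g : Γ) (a : AS S' F) :
    extA S S' F (asAut S' Γ F g a) = asAut S Γ F g (extA S S' F a) := by
  induction a using TensorProduct.induction_on with
  | zero => simp
  | add a a' ha ha' => simp only [map_add, ha, ha']
  | tmul x y => rw [asAut_tmul, extA_tmul, extA_tmul, asAut_tmul]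

end Ext

/-! ### Removing one prime -/

section Erase

variable {S : Finset Nat.Primes} (r : S) (F : Type) [Field F] [CharZero F]

/-- The idempotent `e_r = 1 ⊗ 1_r` of `𝔸_S(F)`. -/
def idemAt : AS S F := (1 : F) ⊗ₜ[ℚ] single S r 1

lemma idemAt_mul_self : idemAt r F * idemAt r F = idemAt r F := by
  rw [idemAt, Algebra.TensorProduct.tmul_mul_tmul, one_mul, ← single_mul, one_mul]

lemma res_single_erase : QS.res (Finset.erase_subset r.1 S) (single S r 1) = 0 := by
  apply QS_ext
  intro q
  rw [QS.res_apply, map_zero, Pi.zero_apply]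
  apply single_apply_ne
  intro hq
  exact (Finset.mem_erase.1 q.2).1 (congrArg Subtype.val hq)

lemma asRes_idemAt : asRes (Finset.erase_subset r.1 S) F (idemAt r F) = 0 := by
  rw [idemAt, asRes_tmul, res_single_erase, TensorProduct.tmul_zero]

lemma ext0_res (y : QS S) :
    ext0 S (S.erase r.1) (QS.res (Finset.erase_subset r.1 S) y) = y * (1 - single S r 1) := by
  apply QS_ext
  intro q
  have hR : QS.toPi S (y * (1 - single S r 1)) q =
      QS.toPi S y q * (1 - QS.toPi S (single S r 1) q) := by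
    rw [map_mul (QS.toPi S), map_sub (QS.toPi S), map_one (QS.toPi S)]
    rfl
  rw [hR]
  by_cases hq : q = r
  · subst hq
    rw [single_apply_same, sub_self, mul_zero]
    exact ext0_apply_not_mem _ q (fun h => (Finset.mem_erase.1 h).1 rfl)
  · rw [single_apply_ne S r q hq, sub_zero, mul_one]
    have hq' : q.1 ∈ S.erase r.1 :=
      Finset.mem_erase.2 ⟨fun h => hq (Subtype.ext h), q.2⟩
    rw [ext0_apply_mem _ q hq']
    rfl

lemma extA_asRes (x : AS S F) :
    extA S (S.erase r.1) F (asRes (Finset.erase_subset r.1 S) F x) = x * (1 - idemAt r F) := by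
  induction x using TensorProduct.induction_on with
  | zero => simp
  | add a a' ha ha' => rw [map_add, map_add, ha, ha', add_mul]
  | tmul a y =>
    rw [asRes_tmul, extA_tmul, ext0_res, idemAt, mul_sub (a ⊗ₜ[ℚ] y), mul_one,
      Algebra.TensorProduct.tmul_mul_tmul, mul_one, mul_sub y, mul_one, TensorProduct.tmul_sub]

lemma extA_one : extA S (S.erase r.1) F 1 = 1 - idemAt r F := by
  have := extA_asRes r F 1
  rwa [map_one, one_mul] at this

lemma extA_mul_idemAt (a : AS (S.erase r.1) F) : extA S (S.erase r.1) F a * idemAt r F = 0 := by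
  have h1 : extA S (S.erase r.1) F a = extA S (S.erase r.1) F a * (1 - idemAt r F) := by
    conv_lhs => rw [← mul_one a, extA_mul, extA_one]
  rw [h1, mul_assoc, sub_mul, one_mul, idemAt_mul_self, sub_self, mul_zero]

/-- Extension by `1` at `r` on units. -/
def secUnits : (AS (S.erase r.1) F)ˣ →* (AS S F)ˣ where
  toFun v :=
    { val := extA S (S.erase r.1) F v + idemAt r F
      inv := extA S (S.erase r.1) F (v⁻¹ : (AS (S.erase r.1) F)ˣ) + idemAt r F
      val_inv := by
        rw [add_mul, mul_add, mul_add, ← extA_mul, Units.mul_inv, extA_mul_idemAt,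
          mul_comm (idemAt r F), extA_mul_idemAt, idemAt_mul_self, extA_one]
        ring
      inv_val := by
        rw [add_mul, mul_add, mul_add, ← extA_mul, Units.inv_mul, extA_mul_idemAt,
          mul_comm (idemAt r F), extA_mul_idemAt, idemAt_mul_self, extA_one]
        ring }
  map_one' := by
    apply Units.ext
    show extA S (S.erase r.1) F 1 + idemAt r F = 1
    rw [extA_one]
    ring
  map_mul' v w := by
    apply Units.ext
    show extA S (S.erase r.1) F (v * w) + idemAt r F =
      (extA S (S.erase r.1) F v + idemAt r F) * (extA S (S.erase r.1) F w + idemAt r F)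
    rw [add_mul, mul_add, mul_add, ← extA_mul, extA_mul_idemAt,
      mul_comm (idemAt r F), extA_mul_idemAt, idemAt_mul_self]
    ring

lemma coe_secUnits (v : (AS (S.erase r.1) F)ˣ) :
    ((secUnits r F v : (AS S F)ˣ) : AS S F) = extA S (S.erase r.1) F v + idemAt r F := rfl

/-- Extension by `1` at `r`, additively: the section `J_{S∖{r}}(F) → J_S(F)` of `jRes`. -/
def jSecAdd : Additive (AS (S.erase r.1) F)ˣ →+ Additive (AS S F)ˣ :=
  MonoidHom.toAdditive (secUnits r F)

lemma coe_jSecAdd (v : Additive (AS (S.erase r.1) F)ˣ) :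
    (((jSecAdd r F v).toMul : (AS S F)ˣ) : AS S F) =
      extA S (S.erase r.1) F ((v.toMul : (AS (S.erase r.1) F)ˣ) : AS (S.erase r.1) F) +
        idemAt r F := rfl

lemma jRes_jSecAdd (v : Additive (AS (S.erase r.1) F)ˣ) :
    jRes (Finset.erase_subset r.1 S) F (jSecAdd r F v) = v := by
  apply Additive.toMul.injective
  apply Units.ext
  rw [coe_jRes_apply, coe_jSecAdd, map_add, asRes_extA, asRes_idemAt, add_zero]

lemma coe_jSecAdd_jRes (u : Additive (AS S F)ˣ) :
    (((jSecAdd r F (jRes (Finset.erase_subset r.1 S) F u)).toMul : (AS S F)ˣ) : AS S F) =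
      ((u.toMul : (AS S F)ˣ) : AS S F) * (1 - idemAt r F) + idemAt r F := by
  rw [coe_jSecAdd, coe_jRes_apply, extA_asRes]

variable (Γ : Type) [Group Γ] [MulSemiringAction Γ F]

lemma asAut_idemAt (g : Γ) : asAut S Γ F g (idemAt r F) = idemAt r F := by
  rw [idemAt, asAut_tmul, smul_one]

lemma jSecAdd_equivariant (g : Γ) (v : Additive (AS (S.erase r.1) F)ˣ) :
    jSecAdd r F (jRepr Γ (S.erase r.1) F g v) = jRepr Γ S F g (jSecAdd r F v) := by
  apply Additive.toMul.injective
  apply Units.ext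
  show extA S (S.erase r.1) F (asAut (S.erase r.1) Γ F g _) + idemAt r F =
    asAut S Γ F g (extA S (S.erase r.1) F _ + idemAt r F)
  rw [extA_asAut, map_add, asAut_idemAt]

/-- The section `J_{S∖{r}}(F) ⟶ J_S(F)` of `jRes` in `Rep ℤ Γ`. -/
def jSec : JRep Γ (S.erase r.1) F ⟶ JRep Γ S F :=
  Rep.ofHom ⟨(jSecAdd r F).toIntLinearMap,
    fun g => LinearMap.ext fun v => jSecAdd_equivariant r F Γ g v⟩

lemma jSec_hom_apply (v : Additive (AS (S.erase r.1) F)ˣ) :
    (jSec r F Γ).hom v = jSecAdd r F v := rfl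

/-- `jSec` is a section of `jRes`. -/
theorem jSec_comp_jRes [NumberField F] :
    jSec r F Γ ≫ G.Rec.TOW.jResRepHom Γ F (Finset.erase_subset r.1 S) = 𝟙 _ := by
  ext v
  exact jRes_jSecAdd r F v

end Erase

/-! ### The decomposition `J_S(F) = J_r(F) × J_{S∖{r}}(F)` for a tower level -/

section Level

variable {S : Finset Nat.Primes} (L : Level S) (r : S)

lemma evQ_idemAt_same : evQ L r (idemAt r L.F) = 1 := by
  rw [idemAt, evQ_one_tmul_single, map_one]

lemma evQ_idemAt_ne {q : S} (h : q ≠ r) : evQ L q (idemAt r L.F) = 0 := by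
  rw [idemAt, evQ_tmul, single_apply_ne S r q h, map_zero, mul_zero]

lemma asRingAut_idemAt (g : L.Gal) : asRingAut L.Gal S L.F g (idemAt r L.F) = idemAt r L.F := by
  rw [asRingAut_apply, asAut_idemAt]

lemma evQ_extA (a : AS (S.erase r.1) L.F) : evQ L r (extA S (S.erase r.1) L.F a) = 0 := by
  have h := congrArg (evQ L r) (extA_mul_idemAt r L.F a)
  rwa [map_mul, evQ_idemAt_same, mul_one, map_zero] at h

/-- The `r`-component of an element of the image of the section is trivial. -/
lemma jTowLin_jSecAdd_same (v : Additive (AS (S.erase r.1) L.F)ˣ) :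
    jTowLin L r (jSecAdd r L.F v) = 0 := by
  apply L.J_ext r.1
  intro g
  apply locCoe_oval_injective
  rw [Jeval_jTowLin, oval_jTowFun, coe_jSecAdd, map_add, asRingAut_idemAt, map_add,
    evQ_idemAt_same, asRingAut_apply, ← extA_asAut, evQ_extA, zero_add]
  rfl

/-- The components at `q ≠ r` only depend on the image in `J_{S∖{r}}(F)`. -/
lemma jTowLin_jSecAdd_jRes_ne {q : S} (h : q ≠ r) (u : Additive (AS S L.F)ˣ) :
    jTowLin L q (jSecAdd r L.F (jRes (Finset.erase_subset r.1 S) L.F u)) = jTowLin L q u := by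
  apply L.J_ext q.1
  intro g
  apply locCoe_oval_injective
  rw [Jeval_jTowLin, Jeval_jTowLin, oval_jTowFun, oval_jTowFun, coe_jSecAdd_jRes, map_add,
    map_mul, map_sub, map_one, asRingAut_idemAt, map_add, map_mul, map_sub, map_one,
    evQ_idemAt_ne L r h, sub_zero, mul_one, add_zero]

/-- **Decomposition** `b = incl_r (pr_r b) + sec (res b)` in `J_S(F)`. -/
theorem jInvLin_add_jSecAdd (b : Additive (AS S L.F)ˣ) :
    jInvLin L r (jTowLin L r b) +
      jSecAdd r L.F (jRes (Finset.erase_subset r.1 S) L.F b) = b := by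
  apply (jAll_bijective L).1
  funext q
  rw [map_add, Pi.add_apply, jAll_apply, jAll_apply, jAll_apply]
  by_cases h : q = r
  · subst h
    rw [jTowLin_jInvLin_same, jTowLin_jSecAdd_same, add_zero]
  · rw [jTowLin_jInvLin_ne L r h, zero_add, jTowLin_jSecAdd_jRes_ne L r h]

/-- The decomposition in `Rep ℤ Gal(F/ℚ)`. -/
theorem jTow_comp_jTowInv_add :
    jTow L r ≫ jTowInv L r +
      G.Rec.TOW.jResRepHom L.Gal L.F (Finset.erase_subset r.1 S) ≫ jSec r L.F L.Gal = 𝟙 _ := by
  ext b
  exact jInvLin_add_jSecAdd L r b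

/-- **Concentration.**  A class of `Hⁿ(Gal(F/ℚ), J_S(F))` which dies in
`Hⁿ(Gal(F/ℚ), J_{S∖{r}}(F))` is the image of its `r`-component. -/
theorem eq_of_jRes_eq_zero (n : ℕ) (y : groupCohomology (JRep L.Gal S L.F) n)
    (hy : (T.coeffMap (G.Rec.TOW.jResRepHom L.Gal L.F (Finset.erase_subset r.1 S)) n).hom y
      = 0) :
    y = (T.coeffMap (jTowInv L r) n).hom ((T.coeffMap (jTow L r) n).hom y) := by
  have h : (T.coeffMap (jTow L r ≫ jTowInv L r +
      G.Rec.TOW.jResRepHom L.Gal L.F (Finset.erase_subset r.1 S) ≫ jSec r L.F L.Gal) n).hom y =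
      (T.coeffMap (𝟙 (JRep L.Gal S L.F)) n).hom y :=
    congrArg (fun f => (T.coeffMap f n).hom y) (jTow_comp_jTowInv_add L r)
  rw [T.H635.coeffMap_id_apply, T.H635.coeffMap_add, T.H635.coeffMap_comp,
    T.H635.coeffMap_comp] at h
  have h2 : (T.coeffMap (jTow L r) n ≫ T.coeffMap (jTowInv L r) n +
      T.coeffMap (G.Rec.TOW.jResRepHom L.Gal L.F (Finset.erase_subset r.1 S)) n ≫
        T.coeffMap (jSec r L.F L.Gal) n).hom y =
      (T.coeffMap (jTowInv L r) n).hom ((T.coeffMap (jTow L r) n).hom y) +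
        (T.coeffMap (jSec r L.F L.Gal) n).hom
          ((T.coeffMap (G.Rec.TOW.jResRepHom L.Gal L.F (Finset.erase_subset r.1 S)) n).hom y)
      := rfl
  rw [h2, hy, map_zero, add_zero] at h
  exact h.symm

/-- A class concentrated at `r` with trivial `r`-component is trivial. -/
theorem eq_zero_of_isAt {y : groupCohomology (JRep L.Gal S L.F) 2}
    (hy : G.Rec.TOW.IsAt S L.Gal L.F r.1 y) (h0 : (T.coeffMap (jTow L r) 2).hom y = 0) :
    y = 0 := by
  rw [eq_of_jRes_eq_zero L r 2 y hy, h0, map_zero]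

/-- A class concentrated at `r` has trivial components at all `q ≠ r`. -/
theorem jTow_eq_zero_of_isAt {y : groupCohomology (JRep L.Gal S L.F) 2}
    (hy : G.Rec.TOW.IsAt S L.Gal L.F r.1 y) {q : S} (h : q ≠ r) :
    (T.coeffMap (jTow L q) 2).hom y = 0 := by
  rw [eq_of_jRes_eq_zero L r 2 y hy, T.H635.coeffMap_comp_apply,
    jTowInv_comp_jTow_of_ne L h, T.H635.coeffMap_zero_apply]

end Level

end

end Fermat.Agent.S55.G.LocH897
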