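import Fermat.Agent.S55.G.Defs

/-!
# S55 / layer G (helper897): Galois invariants of `L ⊗[ℚ] P`

If a finite group `G` acts on the field `L` (characteristic `0`) with fixed field `ℚ`, then the
invariants of `L ⊗[ℚ] P` under `g ⊗ 1` are exactly `1 ⊗ P`, for every `ℚ`-module `P`
(`exists_tmul_of_invariant`).  Proof by averaging.
-/

set_option autoImplicit false
set_option linter.style.haveILetI false

open scoped TensorProduct

namespace Fermat.Agent.S55.G.LocH897

section

variable (Γ L : Type) [Group Γ] [Field L] [CharZero L] [MulSemiringAction Γ L]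

/-- `g ∈ Γ` as a `ℚ`-linear endomorphism of `L`. -/
noncomputable def actLin (g : Γ) : L →ₗ[ℚ] L := (fieldAut Γ L g).toLinearMap

@[simp] lemma actLin_apply (g : Γ) (x : L) : actLin Γ L g x = g • x := rfl

variable [Fintype Γ]

/-- The averaging operator `x ↦ |Γ|⁻¹ ∑_g g x`. -/
noncomputable def avg : L →ₗ[ℚ] L := ((Fintype.card Γ : ℚ)⁻¹) • ∑ g : Γ, actLin Γ L g

lemma avg_apply (x : L) : avg Γ L x = ((Fintype.card Γ : ℚ)⁻¹) • ∑ g : Γ, g • x := by
  simp [avg, LinearMap.sum_apply]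

lemma smul_avg (h : Γ) (x : L) : h • avg Γ L x = avg Γ L x := by
  rw [avg_apply]
  have h1 : h • (((Fintype.card Γ : ℚ)⁻¹) • ∑ g : Γ, g • x) =
      ((Fintype.card Γ : ℚ)⁻¹) • (h • ∑ g : Γ, g • x) :=
    (actLin Γ L h).map_smul _ _
  rw [h1, Finset.smul_sum]
  congr 1
  exact Fintype.sum_bijective (fun g => h * g) (Group.mulLeft_bijective h) _ _
    (fun g => (mul_smul h g x).symm)

/-- The averaging operator factors through `ℚ` when the fixed field is `ℚ`. -/
lemma exists_avg_factor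
    (hfix : ∀ x : L, (∀ g : Γ, g • x = x) → ∃ c : ℚ, algebraMap ℚ L c = x) :
    ∃ t : L →ₗ[ℚ] ℚ, (Algebra.linearMap ℚ L) ∘ₗ t = avg Γ L := by
  have hinj : Function.Injective (Algebra.linearMap ℚ L) := (algebraMap ℚ L).injective
  have hmem : ∀ x : L, avg Γ L x ∈ LinearMap.range (Algebra.linearMap ℚ L) := by
    intro x
    obtain ⟨c, hc⟩ := hfix (avg Γ L x) (fun g => smul_avg Γ L g x)
    exact ⟨c, hc⟩
  refine ⟨(LinearEquiv.ofInjective (Algebra.linearMap ℚ L) hinj).symm.toLinearMap ∘ₗ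
    (avg Γ L).codRestrict _ hmem, ?_⟩
  ext x
  have := (LinearEquiv.ofInjective (Algebra.linearMap ℚ L) hinj).apply_symm_apply
    ((avg Γ L).codRestrict _ hmem x)
  have h2 := congrArg Subtype.val this
  exact h2

variable (P : Type) [AddCommGroup P] [Module ℚ P]

/-- **Invariants of `L ⊗ P`.**  If `Γ` (finite) acts on `L` with fixed field `ℚ`, every element
of `L ⊗[ℚ] P` fixed by all `g ⊗ 1` is of the form `1 ⊗ y`. -/
theorem exists_tmul_of_invariant
    (hfix : ∀ x : L, (∀ g : Γ, g • x = x) → ∃ c : ℚ, algebraMap ℚ L c = x)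
    (α : Γ → (L ⊗[ℚ] P →ₗ[ℚ] L ⊗[ℚ] P))
    (hα : ∀ g x y, α g (x ⊗ₜ[ℚ] y) = (g • x) ⊗ₜ[ℚ] y)
    (r : L ⊗[ℚ] P) (hr : ∀ g, α g r = r) : ∃ y : P, r = (1 : L) ⊗ₜ[ℚ] y := by
  obtain ⟨t, ht⟩ := exists_avg_factor Γ L hfix
  have hαg : ∀ g, (actLin Γ L g).rTensor P = α g := by
    intro g
    refine TensorProduct.ext' fun x y => ?_
    rw [LinearMap.rTensor_tmul, hα]
    rfl
  have hcard : (Fintype.card Γ : ℚ) ≠ 0 := by
    exact_mod_cast Fintype.card_ne_zero
  have h1 : (avg Γ L).rTensor P r = r := by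
    have : (avg Γ L).rTensor P = ((Fintype.card Γ : ℚ)⁻¹) • ∑ g : Γ, α g := by
      show LinearMap.rTensorHom P (avg Γ L) = _
      rw [avg, map_smul, map_sum]
      congr 1
      exact Finset.sum_congr rfl fun g _ => hαg g
    rw [this, LinearMap.smul_apply, LinearMap.sum_apply, Finset.sum_congr rfl (fun g _ => hr g),
      Finset.sum_const, Finset.card_univ, ← Nat.cast_smul_eq_nsmul ℚ, smul_smul,
      inv_mul_cancel₀ hcard, one_smul]
  have h2 : ∀ z : ℚ ⊗[ℚ] P, (Algebra.linearMap ℚ L).rTensor P z =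
      (1 : L) ⊗ₜ[ℚ] (TensorProduct.lid ℚ P z) := by
    intro z
    induction z using TensorProduct.induction_on with
    | zero => simp
    | tmul c y =>
      rw [LinearMap.rTensor_tmul, TensorProduct.lid_tmul, Algebra.linearMap_apply,
        Algebra.algebraMap_eq_smul_one, TensorProduct.smul_tmul]
    | add a b ha hb => rw [map_add, ha, hb, map_add, TensorProduct.tmul_add]
  refine ⟨TensorProduct.lid ℚ P (t.rTensor P r), ?_⟩
  rw [← h2, ← LinearMap.comp_apply, ← LinearMap.rTensor_comp, ht, h1]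

end

end Fermat.Agent.S55.G.LocH897
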