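import Fermat.Agent.S55.G.PL0H713
import Fermat.Agent.S55.G.LocH897.Invariants
import Fermat.Agent.S55.G.LocH897.ShapiroJ

/-!
# S55 / layer G (helper897): the Galois group acts transitively on the places above `q`

If the finite group `Γ` acts on the number field `L` with fixed field `ℚ`, then two places
`𝔪, 𝔫` of `L` above `S` (maximal ideals of `L ⊗ ℚ_S`) over the same rational prime are conjugate
under `Γ` (`exists_sPlaceSMul_eq`), and conversely conjugate places lie over the same prime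
(`primeOf_sPlaceSMul`).
-/

set_option autoImplicit false
set_option linter.style.haveILetI false

open scoped TensorProduct

namespace Fermat.Agent.S55.G.LocH897

open Fermat.Agent.S55 Fermat.Agent.S55.G Fermat.Agent.S55.G.PL0H713

variable (S : Finset Nat.Primes) (Γ L : Type) [Group Γ] [Field L] [NumberField L]
  [MulSemiringAction Γ L]

/-- The image of `y : ℚ_S` in `L_𝔪` only depends on its component at the prime below `𝔪`. -/
lemma mk_one_tmul (𝔪 : SPlace S L) (y : QS S) :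
    LocField.mk S 𝔪 ((1 : L) ⊗ₜ[ℚ] y) = ofQq S L 𝔪 (QS.toPi S y (primeOf S L 𝔪)) := by
  rw [mk_tmul, map_one, one_mul, ofQS_eq]

/-- **Transitivity.**  Places over the same rational prime are Galois-conjugate. -/
theorem exists_sPlaceSMul_eq [Finite Γ]
    (hfix : ∀ x : L, (∀ g : Γ, g • x = x) → ∃ c : ℚ, algebraMap ℚ L c = x)
    (𝔪 𝔫 : SPlace S L) (h : primeOf S L 𝔪 = primeOf S L 𝔫) :
    ∃ g : Γ, sPlaceSMul S Γ g 𝔪 = 𝔫 := by
  classical
  by_contra hne0
  have hne : ∀ g : Γ, sPlaceSMul S Γ g 𝔪 ≠ 𝔫 := fun g hg => hne0 ⟨g, hg⟩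
  haveI : Fintype Γ := Fintype.ofFinite Γ
  haveI := isReduced_AS S L
  haveI := isArtinianRing_AS S L
  -- an element `x ∈ 𝔫` with `x ≡ 1` modulo every other maximal ideal
  obtain ⟨x, hx⟩ := exists_forall_sub_mem_maximal (R := AS S L)
    (fun 𝔫' _ => if 𝔫' = 𝔫.asIdeal then 0 else 1)
  have hx𝔫 : x ∈ 𝔫.asIdeal := by
    have := hx 𝔫.asIdeal 𝔫.isMaximal
    rwa [if_pos rfl, sub_zero] at this
  have hx𝔪 : ∀ g : Γ, asRingAut Γ S L g x - 1 ∈ 𝔪.asIdeal := by
    intro g
    have h1 := hx (sPlaceSMul S Γ g⁻¹ 𝔪).asIdeal (sPlaceSMul S Γ g⁻¹ 𝔪).isMaximal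
    rw [if_neg (fun hh => hne g⁻¹ (MaximalSpectrum.ext hh))] at h1
    rw [mem_sPlaceSMul_iff', inv_inv, map_sub, map_one] at h1
    exact h1
  -- its norm
  set N : AS S L := ∏ g : Γ, asRingAut Γ S L g x with hN
  have hN𝔫 : N ∈ 𝔫.asIdeal := by
    refine Ideal.mem_of_dvd _ (Finset.dvd_prod_of_mem _ (Finset.mem_univ (1 : Γ))) ?_
    rw [map_one]
    exact hx𝔫
  have hN𝔪 : LocField.mk S 𝔪 N = 1 := by
    rw [hN, map_prod]
    refine Finset.prod_eq_one fun g _ => ?_
    have := (LocField.mk_eq_zero_iff S 𝔪 _).2 (hx𝔪 g)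
    rw [map_sub, map_one, sub_eq_zero] at this
    exact this
  have hNinv : ∀ g : Γ, (asAut S Γ L g).toLinearMap N = N := by
    intro g
    show asRingAut Γ S L g N = N
    rw [hN, map_prod]
    refine Fintype.prod_bijective (fun h => g * h) (Group.mulLeft_bijective g) _ _ fun h => ?_
    rw [map_mul, RingAut.mul_apply]
  obtain ⟨y, hy⟩ := exists_tmul_of_invariant Γ L (QS S) hfix
    (fun g => (asAut S Γ L g).toLinearMap) (fun g a b => asAut_tmul S Γ L g a b) N hNinv
  have h0 : QS.toPi S y (primeOf S L 𝔫) = 0 := by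
    have h1 := (LocField.mk_eq_zero_iff S 𝔫 N).2 hN𝔫
    rw [hy, mk_one_tmul] at h1
    exact (map_eq_zero_iff _ (ofQq S L 𝔫).injective).1 h1
  have h1 : QS.toPi S y (primeOf S L 𝔪) = 1 := by
    have h2 := hN𝔪
    rw [hy, mk_one_tmul] at h2
    exact (ofQq S L 𝔪).injective (h2.trans (map_one _).symm)
  rw [h] at h1
  rw [h0] at h1
  exact zero_ne_one h1

/-- Conjugate places lie over the same rational prime. -/
theorem primeOf_sPlaceSMul (g : Γ) (𝔪 : SPlace S L) :
    primeOf S L (sPlaceSMul S Γ g 𝔪) = primeOf S L 𝔪 := by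
  by_contra hne
  set q := primeOf S L 𝔪 with hq
  set e : AS S L := (1 : L) ⊗ₜ[ℚ] (single S q 1) with he
  have h1 : LocField.mk S 𝔪 e = 1 := by
    rw [he, mk_one_tmul, single_apply_same, map_one]
  have hmem : e - 1 ∈ (sPlaceSMul S Γ g 𝔪).asIdeal := by
    rw [mem_sPlaceSMul_iff']
    have hinv : asRingAut Γ S L g⁻¹ e = e := by
      rw [he, asRingAut_apply, asAut_tmul, smul_one]
    rw [map_sub, map_one, hinv]
    have := sub_eq_zero.2 h1
    rw [← map_one (LocField.mk S 𝔪), ← map_sub] at this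
    exact (LocField.mk_eq_zero_iff S 𝔪 _).1 this
  have h2 : LocField.mk S (sPlaceSMul S Γ g 𝔪) e = 1 := by
    have := (LocField.mk_eq_zero_iff S (sPlaceSMul S Γ g 𝔪) _).2 hmem
    rw [map_sub, map_one, sub_eq_zero] at this
    exact this
  rw [he, mk_one_tmul, single_apply_ne S q _ hne, map_zero] at h2
  exact zero_ne_one h2

end Fermat.Agent.S55.G.LocH897
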