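import Fermat.Agent.S55.G.LocH897.Alg

/-!
# S55 / layer G (helper897): semi-local decomposition along evaluation maps

Abstract form of the bridge between the tensor model `(L ⊗ ℚ_S)ˣ` and the tower model
`∏_q Coind_{D_q}^{G} F_qˣ`.

`R` reduced Artinian with an action `φ` of `G`; for each `i : ι` an evaluation `ev i : R →+* Ω i`
into a domain, a "local group" `T i` with `loc i : T i →* G` acting on `Ω i` (`act i`), such that
* `ev i (φ (loc i τ) r) = act i τ (ev i r)`                                  (equivariance);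
* every `s : G` stabilising `ker (ev i)` is of the form `loc i τ`            (decomposition);
* every maximal ideal of `R` is `(φ g)⁻¹ (ker (ev i))` for a unique `i`      (orbits).
Then every family `f i : G → Ω i` with values in the range of `ev i` and
`f i (loc i τ * g) = act i τ (f i g)` is `g ↦ ev i (φ g b)` for a unique `b : R`
(`existsUnique_ev`), and `b` is a unit if all `f i g` are nonzero (`existsUnique_ev_units`).
-/

set_option autoImplicit false
set_option linter.style.haveILetI false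

namespace Fermat.Agent.S55.G.LocH897

variable {G R : Type} [Group G] [CommRing R] (φ : G →* (R ≃+* R))
  [IsArtinianRing R] [IsReduced R]
  {ι : Type} {Ω : ι → Type} [∀ i, CommRing (Ω i)] [∀ i, IsDomain (Ω i)]
  (ev : ∀ i, R →+* Ω i)
  {T : ι → Type} [∀ i, Group (T i)] (loc : ∀ i, T i →* G) (act : ∀ i, T i → Ω i → Ω i)

theorem existsUnique_ev
    (hequiv : ∀ i (τ : T i) (r : R), ev i (φ (loc i τ) r) = act i τ (ev i r))
    (hdec : ∀ i (s : G), (∀ x, ev i (φ s x) = 0 ↔ ev i x = 0) → ∃ τ : T i, loc i τ = s)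
    (hcover : ∀ 𝔫 : Ideal R, 𝔫.IsMaximal → ∃ i g, ∀ x, x ∈ 𝔫 ↔ ev i (φ g x) = 0)
    (hdisj : ∀ i j g, (∀ x, ev j x = 0 ↔ ev i (φ g x) = 0) → i = j)
    (f : ∀ i, G → Ω i) (hrange : ∀ i g, ∃ r : R, ev i r = f i g)
    (hf : ∀ i (τ : T i) g, f i (loc i τ * g) = act i τ (f i g)) :
    ∃! b : R, ∀ i g, ev i (φ g b) = f i g := by
  classical
  have huniq : ∀ b b' : R, (∀ i g, ev i (φ g b) = f i g) →
      (∀ i g, ev i (φ g b') = f i g) → b = b' := by
    intro b b' hb hb'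
    rw [← sub_eq_zero]
    apply eq_zero_of_forall_mem_maximal
    intro 𝔫 h𝔫
    obtain ⟨i, g, hig⟩ := hcover 𝔫 h𝔫
    rw [hig, map_sub, map_sub, hb, hb', sub_self]
  choose ci cg hc using hcover
  choose r hr using hrange
  obtain ⟨b, hb⟩ := exists_forall_sub_mem_maximal
    (fun 𝔫 h𝔫 => φ (cg 𝔫 h𝔫)⁻¹ (r (ci 𝔫 h𝔫) (cg 𝔫 h𝔫)))
  have key : ∀ 𝔫 : Ideal R, 𝔫.IsMaximal → ∃ j g, (∀ x, x ∈ 𝔫 ↔ ev j (φ g x) = 0) ∧
      ev j (φ g b) = f j g := by
    intro 𝔫 h𝔫
    refine ⟨ci 𝔫 h𝔫, cg 𝔫 h𝔫, hc 𝔫 h𝔫, ?_⟩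
    rw [← hr]
    have h1 := (hc 𝔫 h𝔫 _).1 (hb 𝔫 h𝔫)
    rwa [map_sub, apply_apply_inv φ, map_sub, sub_eq_zero] at h1
  have hbprop : ∀ i g, ev i (φ g b) = f i g := by
    intro i g'
    have hmax : (Ideal.comap ((φ g' : R ≃+* R) : R →+* R) (RingHom.ker (ev i))).IsMaximal := by
      haveI : (RingHom.ker (ev i)).IsPrime := RingHom.ker_isPrime (ev i)
      haveI : (RingHom.ker (ev i)).IsMaximal := IsArtinianRing.isMaximal_of_isPrime _
      exact Ideal.comap_isMaximal_of_surjective _ (φ g').surjective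
    obtain ⟨j, g, hjg, hval⟩ := key _ hmax
    have hmem : ∀ x, ev i (φ g' x) = 0 ↔ ev j (φ g x) = 0 := fun x => by
      rw [← hjg x]; rfl
    obtain rfl : j = i := by
      refine hdisj j i (g * g'⁻¹) fun y => ?_
      rw [map_mul, RingAut.mul_apply, ← hmem, apply_apply_inv φ]
    obtain ⟨τ, hτ⟩ := hdec j (g' * g⁻¹) (fun y => by
      rw [map_mul, RingAut.mul_apply, hmem, apply_apply_inv φ])
    have hg' : g' = loc j τ * g := by rw [hτ]; simp
    rw [hg', hf, ← hval, map_mul, RingAut.mul_apply, hequiv]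
  exact ⟨b, hbprop, fun b' hb' => huniq b' b hb' hbprop⟩

/-- Unit version: if all the `f i g` are nonzero, the element `b` is a unit. -/
theorem existsUnique_ev_units
    (hequiv : ∀ i (τ : T i) (r : R), ev i (φ (loc i τ) r) = act i τ (ev i r))
    (hdec : ∀ i (s : G), (∀ x, ev i (φ s x) = 0 ↔ ev i x = 0) → ∃ τ : T i, loc i τ = s)
    (hcover : ∀ 𝔫 : Ideal R, 𝔫.IsMaximal → ∃ i g, ∀ x, x ∈ 𝔫 ↔ ev i (φ g x) = 0)
    (hdisj : ∀ i j g, (∀ x, ev j x = 0 ↔ ev i (φ g x) = 0) → i = j)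
    (f : ∀ i, G → Ω i) (hrange : ∀ i g, ∃ r : R, ev i r = f i g)
    (hf : ∀ i (τ : T i) g, f i (loc i τ * g) = act i τ (f i g))
    (hne : ∀ i g, f i g ≠ 0) :
    ∃! b : Rˣ, ∀ i g, ev i (φ g (b : R)) = f i g := by
  obtain ⟨b, hb, hbu⟩ := existsUnique_ev φ ev loc act hequiv hdec hcover hdisj f hrange hf
  have hunit : IsUnit b := by
    by_contra hnu
    obtain ⟨𝔫, h𝔫, hb𝔫⟩ := exists_max_ideal_of_mem_nonunits hnu
    obtain ⟨i, g, hig⟩ := hcover 𝔫 h𝔫
    exact hne i g ((hb i g).symm.trans ((hig b).1 hb𝔫))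
  refine ⟨hunit.unit, fun i g => hb i g, fun u hu => ?_⟩
  exact Units.ext (hbu (u : R) hu)

end Fermat.Agent.S55.G.LocH897
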