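import Fermat.Agent.S55.G.LocH897.ShapiroJ
import Fermat.Agent.S55.T.ShapiroH303
import Fermat.Agent.S55.T.SumH635

/-!
# S55 / layer G / leaf G-LOC (helper897): `ShapiroJSpec`, unconditional

`shapiroJ : G.ShapiroJSpec` — from `shapiroJ_of` and the T-layer theorems
T8 (`shapiroExplicit`, helper303) and T9a (`finiteProd`, helper635).
-/

set_option autoImplicit false

namespace Fermat.Agent.S55.G.LocH897

open Fermat.Agent.S55

/-- **G-LOC.**  For a set `R` of representatives of the `G`-orbits of places above `S`, the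
localisation maps induce a bijection `Hⁿ(G, J_S(L)) → ∏_{𝔪 ∈ R} Hⁿ(D_𝔪, L_𝔪ˣ)`. -/
theorem shapiroJ : G.ShapiroJSpec :=
  shapiroJ_of T.ShapiroH303.shapiroExplicit T.H635.finiteProd

end Fermat.Agent.S55.G.LocH897
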