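import Fermat.Agent.S55.G.LocH897.TowEv

/-!
# S55 / G-ADAPTER, J-bridge (helper897), part 2: the decomposition group of `ker evQ`

An element `s ∈ Gal(F/ℚ)` stabilising the kernel of `evQ : F ⊗ ℚ_S → ℚ̄_q` is the restriction of
an element of the local Galois group `Gal(ℚ̄_q/ℚ_q)` (`exists_locGal_eq`).
-/

set_option autoImplicit false
set_option linter.style.haveILetI false
set_option linter.unusedSectionVars false

open scoped TensorProduct

namespace Fermat.Agent.S55.G.LocH897

open Fermat.Agent.S55 Fermat.Agent.S55.Tow Fermat.Agent.S55.Bridge.H175 Fermat.Agent.S55.E1.H594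
open Fermat.Agent.S55.G

noncomputable section

variable {S : Finset Nat.Primes} (L : Level S) (q : S)

/-- `evQ` with values in the local level `F_q`. -/
def evE : AS S L.F →+* primeLocalLevel q.1 L.F :=
  (evQ L q).toRingHom.codRestrict (primeLocalLevel q.1 L.F) (evQ_mem_primeLocalLevel L q)

lemma coe_evE (r : AS S L.F) : ((evE L q r : primeLocalLevel q.1 L.F) : Om q.1) = evQ L q r := rfl

lemma evE_surjective : Function.Surjective (evE L q) := by
  rintro ⟨ω, hω⟩
  obtain ⟨r, hr⟩ := exists_evQ_eq L q ω hω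
  exact ⟨r, Subtype.ext hr⟩

lemma evE_eq_zero_iff (r : AS S L.F) : evE L q r = 0 ↔ evQ L q r = 0 := by
  rw [← coe_evE, ← ZeroMemClass.coe_eq_zero]

section Stab

variable (s : L.Gal)
  (hs : ∀ x, evQ L q (asRingAut L.Gal S L.F s x) = 0 ↔ evQ L q x = 0)

/-- The ring endomorphism of `F_q` induced by `s` (which stabilises `ker evQ`). -/
def sbarRing : primeLocalLevel q.1 L.F →+* primeLocalLevel q.1 L.F :=
  (evE L q).liftOfSurjective (evE_surjective L q)
    ⟨(evE L q).comp ((asRingAut L.Gal S L.F s : AS S L.F ≃+* AS S L.F) : AS S L.F →+* AS S L.F),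
      fun x hx => by
        rw [RingHom.mem_ker] at hx ⊢
        rw [RingHom.comp_apply, evE_eq_zero_iff]
        exact (hs x).2 ((evE_eq_zero_iff L q x).1 hx)⟩

lemma sbarRing_evE (r : AS S L.F) :
    sbarRing L q s hs (evE L q r) = evE L q (asRingAut L.Gal S L.F s r) :=
  RingHom.liftOfSurjective_comp_apply _ (evE_surjective L q) _ r

open PL0H713 in
/-- The `ℚ_q`-algebra endomorphism of `F_q` induced by `s`. -/
def sbarAlg : primeLocalLevel q.1 L.F →ₐ[Qq q.1] primeLocalLevel q.1 L.F :=
  { sbarRing L q s hs with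
    commutes' := fun y => by
      have h1 : algebraMap (Qq q.1) (primeLocalLevel q.1 L.F) y =
          evE L q ((1 : L.F) ⊗ₜ[ℚ] single S q y) :=
        Subtype.ext (evQ_one_tmul_single L q y).symm
      show sbarRing L q s hs _ = _
      rw [h1, sbarRing_evE, asRingAut_apply, asAut_tmul, smul_one] }

lemma sbarAlg_evE (r : AS S L.F) :
    sbarAlg L q s hs (evE L q r) = evE L q (asRingAut L.Gal S L.F s r) :=
  sbarRing_evE L q s hs r

/-- The automorphism of `F_q` over `ℚ_q` induced by `s`. -/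
def sbarEquiv : primeLocalLevel q.1 L.F ≃ₐ[Qq q.1] primeLocalLevel q.1 L.F :=
  haveI := Bridge.H175.level_normal L
  haveI := Bridge.H175.level_finiteDimensional L
  haveI := finiteDimensional_primeLocalLevel q.1 L.F
  AlgEquiv.ofBijective (sbarAlg L q s hs) (Algebra.IsAlgebraic.algHom_bijective _)

lemma sbarEquiv_evE (r : AS S L.F) :
    sbarEquiv L q s hs (evE L q r) = evE L q (asRingAut L.Gal S L.F s r) :=
  sbarRing_evE L q s hs r

/-- **Decomposition groups.**  An element of `Gal(F/ℚ)` stabilising `ker evQ` comes from the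
local Galois group. -/
theorem exists_locGal_eq (s : L.Gal)
    (hs : ∀ x, evQ L q (asRingAut L.Gal S L.F s x) = 0 ↔ evQ L q x = 0) :
    ∃ τ : GQp q.1, locGal L q.1 τ = s := by
  obtain ⟨τ, hτ⟩ := QuotientGroup.mk_surjective ((decEquiv L q.1).symm (sbarEquiv L q s hs))
  refine ⟨τ, ?_⟩
  have hτ' : decEquiv L q.1 (QuotientGroup.mk τ) = sbarEquiv L q s hs := by
    rw [hτ, MulEquiv.apply_symm_apply]
  haveI := E1.H594.level_faithfulSMul L
  apply FaithfulSMul.eq_of_smul_eq_smul (α := L.F)
  intro x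
  apply Subtype.ext
  apply (padicEmbedding (q.1 : ℕ)).toRingHom.injective
  show padicEmbedding (q.1 : ℕ) ((locGal L q.1 τ • x : L.F) : Qbar) =
    padicEmbedding (q.1 : ℕ) ((s • x : L.F) : Qbar)
  have h1 : padicEmbedding (q.1 : ℕ) ((locGal L q.1 τ • x : L.F) : Qbar) =
      toAut q.1 τ (padicEmbedding (q.1 : ℕ) (x : Qbar)) := by
    rw [locGal_apply, level_mk_smul, padicEmbedding_locQ]
  have h2 := decEquiv_mk_apply_coe L q.1 τ (evE L q (x ⊗ₜ[ℚ] (1 : QS S)))
  rw [hτ', sbarEquiv_evE, coe_evE, coe_evE, asRingAut_apply, asAut_tmul, evQ_tmul_one,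
    evQ_tmul_one] at h2
  rw [h1]
  exact h2.symm

end Stab

end

end Fermat.Agent.S55.G.LocH897
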