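import Fermat.Agent.S55.E1.H594.LevelUnits
import Fermat.Agent.S55.Bridge.H175.TowerDict
import Fermat.Agent.S55.Spec.Tower3
import Fermat.Agent.S55.G.LocH897.Trans
import Fermat.Agent.S55.G.LocH897.AlgEv

/-!
# S55 / G-ADAPTER, J-bridge (helper897), part 1: the evaluation maps `F ⊗ ℚ_S → ℚ̄_q`

For a tower level `L : Tow.Level S` with field `F = L.F` and `q ∈ S`:
* `evQ L q : AS S L.F →ₐ[ℚ] PadicAlgCl q`, `x ⊗ y ↦ ι_q(x) · y_q`;
* `evQ_equivariant` : `evQ (mk (loc τ) • r) = τ (evQ r)` for `τ ∈ Gal(ℚ̄_q/ℚ_q)`;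
* `range_evQ` : the range of `evQ` is the local level `F_q = primeLocalLevel q F`.
-/

set_option autoImplicit false
set_option linter.style.haveILetI false
set_option linter.unusedSectionVars false

open scoped TensorProduct

namespace Fermat.Agent.S55.G.LocH897

open Fermat.Agent.S55 Fermat.Agent.S55.Tow Fermat.Agent.S55.Bridge.H175 Fermat.Agent.S55.E1.H594
open Fermat.Agent.S55.G

noncomputable section

variable {S : Finset Nat.Primes} (L : Level S)

/-- `ℚ̄_q` for `q : Nat.Primes`. -/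
abbrev Om (q : Nat.Primes) : Type := PadicAlgCl (q : ℕ)

theorem isScalarTower_Om (q : Nat.Primes) : IsScalarTower ℚ (Qq q) (Om q) :=
  IsScalarTower.of_algebraMap_eq' (Subsingleton.elim _ _)

/-- `ι_q : F → ℚ̄_q`. -/
def embF (q : Nat.Primes) : L.F →ₐ[ℚ] Om q := (padicEmbedding (q : ℕ)).comp L.F.val

lemma embF_apply (q : Nat.Primes) (x : L.F) : embF L q x = padicEmbedding (q : ℕ) (x : Qbar) := rfl

/-- `ℚ_S → ℚ_q → ℚ̄_q`. -/
def projOm (q : S) : QS S →ₐ[ℚ] Om q.1 :=
  haveI := isScalarTower_Om q.1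
  (IsScalarTower.toAlgHom ℚ (Qq q.1) (Om q.1)).comp (QS.proj S q)

lemma projOm_apply (q : S) (y : QS S) :
    projOm q y = algebraMap (Qq q.1) (Om q.1) (QS.toPi S y q) := rfl

/-- The evaluation `F ⊗ ℚ_S → ℚ̄_q`, `x ⊗ y ↦ ι_q(x) · y_q`. -/
def evQ (q : S) : AS S L.F →ₐ[ℚ] Om q.1 :=
  Algebra.TensorProduct.lift (embF L q.1) (projOm q) (fun _ _ => Commute.all _ _)

@[simp] lemma evQ_tmul (q : S) (x : L.F) (y : QS S) :
    evQ L q (x ⊗ₜ[ℚ] y) = padicEmbedding (q.1 : ℕ) (x : Qbar) *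
      algebraMap (Qq q.1) (Om q.1) (QS.toPi S y q) := by
  simp [evQ, embF_apply, projOm_apply]

/-- An element of the Prelude local Galois group as an automorphism of `ℚ̄_q`. -/
def toAut (q : Nat.Primes) (τ : GQp q) : Om q ≃ₐ[Qq q] Om q := τ

lemma toAut_mul (q : Nat.Primes) (τ τ' : GQp q) (ω : Om q) :
    toAut q (τ * τ') ω = toAut q τ (toAut q τ' ω) := rfl

lemma padicEmbedding_locQ (q : Nat.Primes) (τ : GQp q) (x : Qbar) :
    padicEmbedding (q : ℕ) (locQ q τ x) = toAut q τ (padicEmbedding (q : ℕ) x) :=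
  padicEmbedding_localGaloisToGlobal (q : ℕ) τ x

/-- The composite `Gal(ℚ̄_q/ℚ_q) → G_ℚ → Gal(F/ℚ)`. -/
def locGal (q : Nat.Primes) : GQp q →* L.Gal := (QuotientGroup.mk' L.U).comp (locQ q)

lemma locGal_apply (q : Nat.Primes) (τ : GQp q) :
    locGal L q τ = (QuotientGroup.mk (locQ q τ) : L.Gal) := rfl

lemma locGal_eq_decHom (q : Nat.Primes) (τ : GQp q) :
    locGal L q τ = L.decHom q (QuotientGroup.mk τ) := rfl

/-- Equivariance of the evaluation map. -/
theorem evQ_equivariant (q : S) (τ : GQp q.1) (r : AS S L.F) :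
    evQ L q (asRingAut L.Gal S L.F (locGal L q.1 τ) r) = toAut q.1 τ (evQ L q r) := by
  induction r using TensorProduct.induction_on with
  | zero => simp
  | tmul x y =>
    rw [asRingAut_apply, asAut_tmul, evQ_tmul, evQ_tmul, map_mul, AlgEquiv.commutes,
      locGal_apply, level_mk_smul, padicEmbedding_locQ]
  | add a b ha hb => simp only [map_add, ha, hb]

/-! ### The range of the evaluation map is the local level -/

open PL0H713 in
lemma evQ_one_tmul_single (q : S) (y : Qq q.1) :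
    evQ L q ((1 : L.F) ⊗ₜ[ℚ] single S q y) = algebraMap (Qq q.1) (Om q.1) y := by
  rw [evQ_tmul, single_apply_same]
  simp

lemma evQ_tmul_one (q : S) (x : L.F) :
    evQ L q (x ⊗ₜ[ℚ] (1 : QS S)) = padicEmbedding (q.1 : ℕ) (x : Qbar) := by
  rw [evQ_tmul, map_one (QS.toPi S), Pi.one_apply, map_one, mul_one]

/-- The range of `evQ` as a `ℚ_q`-subalgebra of `ℚ̄_q`. -/
def evRange (q : S) : Subalgebra (Qq q.1) (Om q.1) where
  carrier := Set.range (evQ L q)
  mul_mem' := by rintro _ _ ⟨a, rfl⟩ ⟨b, rfl⟩; exact ⟨a * b, map_mul _ _ _⟩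
  add_mem' := by rintro _ _ ⟨a, rfl⟩ ⟨b, rfl⟩; exact ⟨a + b, map_add _ _ _⟩
  one_mem' := ⟨1, map_one _⟩
  zero_mem' := ⟨0, map_zero _⟩
  algebraMap_mem' := fun y => ⟨_, evQ_one_tmul_single L q y⟩

lemma mem_evRange (q : S) (ω : Om q.1) : ω ∈ evRange L q ↔ ∃ r, evQ L q r = ω := Iff.rfl

/-- `evQ` takes values in the local level `F_q`. -/
theorem evQ_mem_primeLocalLevel (q : S) (r : AS S L.F) :
    evQ L q r ∈ primeLocalLevel q.1 L.F := by
  induction r using TensorProduct.induction_on with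
  | zero => rw [map_zero]; exact zero_mem _
  | tmul x y =>
    rw [evQ_tmul]
    exact mul_mem (padicEmbedding_mem_localLevel x.2)
      (IntermediateField.algebraMap_mem _ _)
  | add a b ha hb => rw [map_add]; exact add_mem ha hb

/-- Every element of the local level `F_q` is a value of `evQ`. -/
theorem exists_evQ_eq (q : S) (ω : Om q.1) (hω : ω ∈ primeLocalLevel q.1 L.F) :
    ∃ r, evQ L q r = ω := by
  have h1 : (primeLocalLevel q.1 L.F).toSubalgebra =
      Algebra.adjoin (Qq q.1) ((padicEmbedding (q.1 : ℕ)) '' (L.F : Set Qbar)) :=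
    IntermediateField.adjoin_toSubalgebra _
  have h2 : Algebra.adjoin (Qq q.1) ((padicEmbedding (q.1 : ℕ)) '' (L.F : Set Qbar)) ≤
      evRange L q := by
    refine Algebra.adjoin_le ?_
    rintro _ ⟨x, hx, rfl⟩
    exact ⟨_, evQ_tmul_one L q ⟨x, hx⟩⟩
  have h3 : ω ∈ (primeLocalLevel q.1 L.F).toSubalgebra := hω
  rw [h1] at h3
  exact h2 h3

end

end Fermat.Agent.S55.G.LocH897
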