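import Fermat.Agent.S55.G.LocH897.TowOrb

/-!
# S55 / G-ADAPTER, J-bridge (helper897), part 4: `J_S(F) ≅ ∏_{q ∈ S} J_q(F)`

For a tower level `L : Tow.Level S` (field `F = L.F`, group `L.Gal`):
* `jTow L q : G.JRep L.Gal S L.F ⟶ L.J q` : the morphism `(F ⊗ ℚ_S)ˣ → Coind_{D_q} F_qˣ`,
  `b ↦ (g ↦ evQ (g • b))`, of `Rep ℤ L.Gal`;
* `jTow_bijective` : `b ↦ (jTow L q b)_{q ∈ S}` is bijective.
-/

set_option autoImplicit false
set_option linter.style.haveILetI false
set_option linter.unusedSectionVars false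

open scoped TensorProduct
open CategoryTheory

namespace Fermat.Agent.S55.G.LocH897

open Fermat.Agent.S55 Fermat.Agent.S55.Tow Fermat.Agent.S55.Bridge.H175 Fermat.Agent.S55.E1.H594
open Fermat.Agent.S55.G Fermat.Agent.S55.G.PL0H713

noncomputable section

/-- The element of `ℚ̄_q` underlying a vector of `unitsQpbar q`. -/
def oval (q : Nat.Primes) (x : (unitsQpbar q).V) : Om q :=
  ((Additive.toMul (show Additive (Om q)ˣ from x) : (Om q)ˣ) : Om q)

lemma oval_injective (q : Nat.Primes) : Function.Injective (oval q) := by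
  intro x y h
  have h1 : (Additive.toMul (show Additive (Om q)ˣ from x) : (Om q)ˣ) =
      Additive.toMul (show Additive (Om q)ˣ from y) := Units.ext h
  exact Additive.toMul.injective h1

lemma oval_ne_zero (q : Nat.Primes) (x : (unitsQpbar q).V) : oval q x ≠ 0 :=
  (Additive.toMul (show Additive (Om q)ˣ from x) : (Om q)ˣ).ne_zero

lemma oval_ρ (q : Nat.Primes) (τ : GQp q) (x : (unitsQpbar q).V) :
    oval q ((unitsQpbar q).ρ τ x) = toAut q τ (oval q x) := rfl

variable {S : Finset Nat.Primes} (L : Level S) (q : S)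

/-- `evQ` on units, additively. -/
def evUnits : Additive (AS S L.F)ˣ →ₗ[ℤ] (unitsQpbar q.1).V :=
  (Units.map ((evQ L q : AS S L.F →+* Om q.1) : AS S L.F →* Om q.1)).toAdditive.toIntLinearMap

lemma oval_evUnits (b : Additive (AS S L.F)ˣ) :
    oval q.1 (evUnits L q b) = evQ L q ((b.toMul : (AS S L.F)ˣ) : AS S L.F) := rfl

lemma locGal_eq_one_of_mem (τ : GQp q.1) (hτ : τ ∈ L.V q.1) : locGal L q.1 τ = 1 := by
  rw [locGal_apply]
  exact (QuotientGroup.eq_one_iff _).2 hτ

lemma evUnits_fixed (b : Additive (AS S L.F)ˣ) (τ : GQp q.1) (hτ : τ ∈ L.V q.1) :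
    (unitsQpbar q.1).ρ τ (evUnits L q b) = evUnits L q b := by
  apply oval_injective
  rw [oval_ρ, oval_evUnits, ← evQ_equivariant, locGal_eq_one_of_mem L q τ hτ, map_one]
  rfl

/-- The value at `g` of the image of `b ∈ J_S(F)` in `J_q(F) = Coind F_qˣ`. -/
def jTowFun (b : Additive (AS S L.F)ˣ) (g : L.Gal) : (L.locUnits q.1).V :=
  L.locMk q.1 (evUnits L q (jRepr L.Gal S L.F g b)) (fun τ hτ => evUnits_fixed L q _ τ hτ)

lemma oval_jTowFun (b : Additive (AS S L.F)ˣ) (g : L.Gal) :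
    oval q.1 (L.locCoe q.1 (jTowFun L q b g)) =
      evQ L q (asRingAut L.Gal S L.F g ((b.toMul : (AS S L.F)ˣ) : AS S L.F)) := rfl

lemma locCoe_oval_injective {x y : (L.locUnits q.1).V}
    (h : oval q.1 (L.locCoe q.1 x) = oval q.1 (L.locCoe q.1 y)) : x = y :=
  L.locCoe_injective q.1 (oval_injective q.1 h)

lemma jTowFun_mul (b : Additive (AS S L.F)ˣ) (d : L.Dec q.1) (g : L.Gal) :
    jTowFun L q b (L.decHom q.1 d * g) = (L.locUnits q.1).ρ d (jTowFun L q b g) := by
  obtain ⟨τ, rfl⟩ := QuotientGroup.mk_surjective d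
  apply locCoe_oval_injective
  rw [oval_jTowFun, L.locUnits_ρ_coe, oval_ρ, oval_jTowFun, ← evQ_equivariant, map_mul,
    RingAut.mul_apply]
  rfl

lemma jTowFun_add (b b' : Additive (AS S L.F)ˣ) (g : L.Gal) :
    jTowFun L q (b + b') g = jTowFun L q b g + jTowFun L q b' g := by
  apply L.locCoe_injective q.1
  show evUnits L q (jRepr L.Gal S L.F g (b + b')) =
    evUnits L q (jRepr L.Gal S L.F g b) + evUnits L q (jRepr L.Gal S L.F g b')
  rw [map_add, map_add]

lemma jTowFun_smul (c : ℤ) (b : Additive (AS S L.F)ˣ) (g : L.Gal) :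
    jTowFun L q (c • b) g = c • jTowFun L q b g := by
  apply L.locCoe_injective q.1
  show evUnits L q (jRepr L.Gal S L.F g (c • b)) = c • evUnits L q (jRepr L.Gal S L.F g b)
  rw [map_smul, map_smul]

/-- The map `J_S(F) → J_q(F)`, `ℤ`-linear. -/
def jTowLin : Additive (AS S L.F)ˣ →ₗ[ℤ] (L.J q.1).V where
  toFun b := ⟨fun g => jTowFun L q b g, fun d g => jTowFun_mul L q b d g⟩
  map_add' b b' := Subtype.ext (funext fun g => jTowFun_add L q b b' g)
  map_smul' c b := Subtype.ext (funext fun g => jTowFun_smul L q c b g)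

lemma Jeval_jTowLin (b : Additive (AS S L.F)ˣ) (g : L.Gal) :
    L.Jeval q.1 (jTowLin L q b) g = jTowFun L q b g := rfl

/-- **The J-bridge morphism** `J_S(F) = (F ⊗ ℚ_S)ˣ ⟶ J_q(F) = Coind_{D_q} F_qˣ`. -/
def jTow : JRep L.Gal S L.F ⟶ L.J q.1 :=
  Rep.ofHom
    { toLinearMap := jTowLin L q
      isIntertwining' := fun h => by
        refine LinearMap.ext fun b => ?_
        apply L.J_ext q.1
        intro g
        show jTowFun L q (jRepr L.Gal S L.F h b) g = jTowFun L q b (g * h)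
        apply L.locCoe_injective q.1
        show evUnits L q (jRepr L.Gal S L.F g (jRepr L.Gal S L.F h b)) =
          evUnits L q (jRepr L.Gal S L.F (g * h) b)
        rw [map_mul]
        rfl }

lemma jTow_hom_apply (b : Additive (AS S L.F)ˣ) : (jTow L q).hom b = jTowLin L q b := rfl

/-! ### Bijectivity -/

/-- The value of an element of `F_qˣ` (a `Gal(ℚ̄_q/F_q)`-invariant unit of `ℚ̄_q`) is a value
of `evQ`. -/
lemma exists_evQ_eq_oval (x : (L.locUnits q.1).V) :
    ∃ r, evQ L q r = oval q.1 (L.locCoe q.1 x) := by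
  haveI := isGalois_padicAlgCl' q.1
  haveI := normal_primeLocalLevel L q.1
  have hx : L.locCoe q.1 x ∈ Representation.invariants
      ((unitsQpbar q.1).ρ.comp (L.V q.1).subtype) := x.2
  obtain ⟨a, ha⟩ := (mem_invariants_units_iff (k := Qq q.1) (K' := Om q.1)
    (hNn := Tow.Level.normalV L q.1)
    (primeLocalLevel q.1 L.F) (L.V q.1) (level_V_eq L q.1) (L.locCoe q.1 x)).1 hx
  obtain ⟨r, hr⟩ := exists_evQ_eq L q (a : Om q.1) a.2
  exact ⟨r, hr.trans ha⟩

/-- **The J-bridge.**  Every family `(F_q)_{q ∈ S}`, `F_q ∈ J_q(F) = Coind_{D_q} F_qˣ`, is the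
image of a unique `S`-idèle `b ∈ J_S(F) = (F ⊗ ℚ_S)ˣ`. -/
theorem jTow_existsUnique (F : ∀ q : S, (L.J q.1).V) :
    ∃! b : Additive (AS S L.F)ˣ, ∀ q : S, jTowLin L q b = F q := by
  haveI := isReduced_AS S L.F
  haveI := isArtinianRing_AS S L.F
  obtain ⟨b, hb, hbu⟩ := existsUnique_ev_units (asRingAut L.Gal S L.F) (ι := S)
    (Ω := fun q => Om q.1) (fun q => (evQ L q : AS S L.F →+* Om q.1))
    (T := fun q => GQp q.1) (fun q => locGal L q.1) (fun q τ ω => toAut q.1 τ ω)
    (fun q τ r => evQ_equivariant L q τ r)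
    (fun q s hs => exists_locGal_eq L q s hs)
    (evQ_cover L) (evQ_disj L)
    (fun q g => oval q.1 (L.locCoe q.1 (L.Jeval q.1 (F q) g)))
    (fun q g => exists_evQ_eq_oval L q _)
    (fun q τ g => by
      rw [locGal_eq_decHom, L.Jeval_mul, L.locUnits_ρ_coe, oval_ρ])
    (fun q g => oval_ne_zero _ _)
  refine ⟨Additive.ofMul b, fun q => ?_, fun c hc => ?_⟩
  · apply L.J_ext q.1
    intro g
    apply locCoe_oval_injective
    rw [Jeval_jTowLin, oval_jTowFun]
    exact hb q g
  · apply Additive.toMul.injective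
    refine hbu (Additive.toMul c) fun q g => ?_
    have := congrArg (fun f => oval q.1 (L.locCoe q.1 (L.Jeval q.1 f g))) (hc q)
    exact this

/-- **The J-bridge**: `b ↦ (jTow L q b)_{q ∈ S}` is a bijection
`J_S(F) → ∏_{q ∈ S} J_q(F)`. -/
theorem jTow_bijective :
    Function.Bijective (fun (b : (JRep L.Gal S L.F).V) (q : S) => (jTow L q).hom b) := by
  constructor
  · intro b b' h
    obtain ⟨c, -, hcu⟩ := jTow_existsUnique L (fun q => jTowLin L q b')
    rw [hcu b' (fun _ => rfl)]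
    exact hcu b (fun q => congrFun h q)
  · intro F
    obtain ⟨b, hb, -⟩ := jTow_existsUnique L F
    exact ⟨b, funext hb⟩

end

end Fermat.Agent.S55.G.LocH897
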