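import Fermat.Agent.S55.G.LocH897.TowJ

/-!
# S55 / G-ADAPTER, J-bridge (helper897), part 5: the inverse maps `J_q(F) → J_S(F)`

* `jEquiv L : J_S(F) ≃ₗ[ℤ] ∏_{q ∈ S} J_q(F)`;
* `jTowInv L q : L.J q ⟶ G.JRep L.Gal S L.F` (in `Rep ℤ L.Gal`), the inclusion of the `q`-component;
* `jTow_jTowInv_same`, `jTow_jTowInv_ne`, `sum_jTowInv_jTow`.
-/

set_option autoImplicit false
set_option linter.style.haveILetI false
set_option linter.unusedSectionVars false

open scoped TensorProduct
open CategoryTheory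

namespace Fermat.Agent.S55.G.LocH897

open Fermat.Agent.S55 Fermat.Agent.S55.Tow Fermat.Agent.S55.Bridge.H175 Fermat.Agent.S55.E1.H594
open Fermat.Agent.S55.G Fermat.Agent.S55.G.PL0H713

noncomputable section

variable {S : Finset Nat.Primes} (L : Level S)

/-- `b ↦ (jTow L q b)_{q ∈ S}` as a linear map. -/
def jAll : Additive (AS S L.F)ˣ →ₗ[ℤ] (∀ q : S, (L.J q.1).V) :=
  LinearMap.pi (fun q => jTowLin L q)

lemma jAll_apply (b : Additive (AS S L.F)ˣ) (q : S) : jAll L b q = jTowLin L q b := rfl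

lemma jAll_bijective : Function.Bijective (jAll L) := jTow_bijective L

/-- **The J-bridge** as a linear equivalence `J_S(F) ≃ ∏_{q ∈ S} J_q(F)`. -/
def jEquiv : Additive (AS S L.F)ˣ ≃ₗ[ℤ] (∀ q : S, (L.J q.1).V) :=
  LinearEquiv.ofBijective (jAll L) (jAll_bijective L)

lemma jEquiv_apply (b : Additive (AS S L.F)ˣ) (q : S) : jEquiv L b q = jTowLin L q b := rfl

lemma jAll_ρ (h : L.Gal) (b : Additive (AS S L.F)ˣ) (q : S) :
    jAll L (jRepr L.Gal S L.F h b) q = (L.J q.1).ρ h (jAll L b q) :=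
  Rep.hom_comm_apply (jTow L q) h b

section Inv

variable (q : S)

open Classical in
/-- The inclusion of the `q`-component `J_q(F) → J_S(F)`, `ℤ`-linear. -/
def jInvLin : (L.J q.1).V →ₗ[ℤ] Additive (AS S L.F)ˣ :=
  (jEquiv L).symm.toLinearMap ∘ₗ LinearMap.single ℤ (fun q : S => (L.J q.1).V) q

open Classical in
lemma jAll_jInvLin (x : (L.J q.1).V) :
    jAll L (jInvLin L q x) = Pi.single (M := fun q : S => (L.J q.1).V) q x :=
  (jEquiv L).apply_symm_apply _

lemma jTowLin_jInvLin_same (x : (L.J q.1).V) : jTowLin L q (jInvLin L q x) = x := by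
  classical
  have := congrFun (jAll_jInvLin L q x) q
  rw [Pi.single_eq_same] at this
  exact this

lemma jTowLin_jInvLin_ne {q' : S} (h : q' ≠ q) (x : (L.J q.1).V) :
    jTowLin L q' (jInvLin L q x) = 0 := by
  classical
  have := congrFun (jAll_jInvLin L q x) q'
  rw [Pi.single_eq_of_ne h] at this
  exact this

lemma jInvLin_ρ (h : L.Gal) (x : (L.J q.1).V) :
    jInvLin L q ((L.J q.1).ρ h x) = jRepr L.Gal S L.F h (jInvLin L q x) := by
  classical
  apply (jAll_bijective L).1
  funext q'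
  rw [jAll_ρ, jAll_jInvLin, jAll_jInvLin]
  by_cases hq : q' = q
  · subst hq
    rw [Pi.single_eq_same, Pi.single_eq_same]
  · rw [Pi.single_eq_of_ne hq, Pi.single_eq_of_ne hq, map_zero]

/-- **The inclusion of the `q`-component** `J_q(F) ⟶ J_S(F)` in `Rep ℤ L.Gal`. -/
def jTowInv : L.J q.1 ⟶ JRep L.Gal S L.F :=
  Rep.ofHom
    { toLinearMap := jInvLin L q
      isIntertwining' := fun h => LinearMap.ext fun x => jInvLin_ρ L q h x }

lemma jTowInv_hom_apply (x : (L.J q.1).V) : (jTowInv L q).hom x = jInvLin L q x := rfl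

theorem jTow_jTowInv_same (x : (L.J q.1).V) :
    (jTow L q).hom ((jTowInv L q).hom x) = x := jTowLin_jInvLin_same L q x

theorem jTow_jTowInv_ne {q' : S} (h : q' ≠ q) (x : (L.J q.1).V) :
    (jTow L q').hom ((jTowInv L q).hom x) = 0 := jTowLin_jInvLin_ne L q h x

end Inv

/-- Every `S`-idèle is the sum of its components. -/
theorem sum_jTowInv_jTow (b : (JRep L.Gal S L.F).V) :
    ∑ q : S, (jTowInv L q).hom ((jTow L q).hom b) = b := by
  classical
  apply (jAll_bijective L).1
  funext q'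
  show jAll L (∑ q : S, jInvLin L q (jTowLin L q b)) q' = jAll L b q'
  rw [map_sum, Finset.sum_apply]
  rw [Finset.sum_eq_single q']
  · rw [jAll_jInvLin, Pi.single_eq_same]
    rfl
  · intro q _ hq
    rw [jAll_jInvLin, Pi.single_eq_of_ne (Ne.symm hq)]
  · intro h
    exact absurd (Finset.mem_univ q') h

/-- A family of local components is recovered from its sum. -/
theorem jTow_sum_jTowInv (x : ∀ q : S, (L.J q.1).V) (q' : S) :
    (jTow L q').hom (∑ q : S, (jTowInv L q).hom (x q)) = x q' := by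
  classical
  rw [map_sum, Finset.sum_eq_single q']
  · exact jTow_jTowInv_same L q' (x q')
  · intro q _ hq
    exact jTow_jTowInv_ne L q (Ne.symm hq) (x q)
  · intro h
    exact absurd (Finset.mem_univ q') h

end

end Fermat.Agent.S55.G.LocH897
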