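import Fermat.Agent.S55.G.LocH897.TowDec

/-!
# S55 / G-ADAPTER, J-bridge (helper897), part 3: places of a tower level

For a tower level `L` and `q ∈ S`: `placeQ L q` is the place of `F = L.F` above `q` cut out by
the Prelude embedding `ℚ̄ → ℚ̄_q` (the kernel of `evQ`).  Every place of `F` above `S` is
conjugate under `Gal(F/ℚ)` to exactly one `placeQ L q` (`evQ_cover`, `evQ_disj`).
-/

set_option autoImplicit false
set_option linter.style.haveILetI false
set_option linter.unusedSectionVars false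

open scoped TensorProduct

namespace Fermat.Agent.S55.G.LocH897

open Fermat.Agent.S55 Fermat.Agent.S55.Tow Fermat.Agent.S55.Bridge.H175 Fermat.Agent.S55.E1.H594
open Fermat.Agent.S55.G Fermat.Agent.S55.G.PL0H713

noncomputable section

variable {S : Finset Nat.Primes} (L : Level S) (q : S)

/-- The place of `F` above `q` given by the Prelude embedding `ι_q : ℚ̄ → ℚ̄_q`. -/
def placeQ : SPlace S L.F where
  asIdeal := RingHom.ker (evQ L q)
  isMaximal := by
    haveI := isArtinianRing_AS S L.F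
    haveI : (RingHom.ker (evQ L q)).IsPrime := RingHom.ker_isPrime (evQ L q)
    exact IsArtinianRing.isMaximal_of_isPrime _

lemma mem_placeQ (x : AS S L.F) : x ∈ (placeQ L q).asIdeal ↔ evQ L q x = 0 := RingHom.mem_ker

/-- The place `placeQ L q` lies over `q`. -/
theorem primeOf_placeQ : primeOf S L.F (placeQ L q) = q := by
  by_contra hne
  have h1 : LocField.mk S (placeQ L q) ((1 : L.F) ⊗ₜ[ℚ] single S q 1) = 0 := by
    rw [mk_one_tmul, single_apply_ne S q _ hne, map_zero]
  rw [LocField.mk_eq_zero_iff, mem_placeQ, evQ_one_tmul_single, map_one] at h1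
  exact one_ne_zero h1

lemma level_hfix (x : L.F) (hx : ∀ g : L.Gal, g • x = x) : ∃ c : ℚ, algebraMap ℚ L.F c = x :=
  (level_isGaloisGroup L).isInvariant.isInvariant x hx

/-- Every place above `S` is conjugate to some `placeQ L q`. -/
theorem evQ_cover (𝔫 : Ideal (AS S L.F)) (h𝔫 : 𝔫.IsMaximal) :
    ∃ (q : S) (g : L.Gal), ∀ x, x ∈ 𝔫 ↔ evQ L q (asRingAut L.Gal S L.F g x) = 0 := by
  set 𝔫' : SPlace S L.F := ⟨𝔫, h𝔫⟩ with h𝔫'
  obtain ⟨g, hg⟩ := exists_sPlaceSMul_eq S L.Gal L.F (level_hfix L)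
    (placeQ L (primeOf S L.F 𝔫')) 𝔫' (primeOf_placeQ L _)
  refine ⟨primeOf S L.F 𝔫', g⁻¹, fun x => ?_⟩
  rw [← mem_placeQ, ← mem_sPlaceSMul_iff', hg]

/-- The places `placeQ L q`, `q ∈ S`, are pairwise non-conjugate. -/
theorem evQ_disj (i j : S) (g : L.Gal)
    (h : ∀ x, evQ L j x = 0 ↔ evQ L i (asRingAut L.Gal S L.F g x) = 0) : i = j := by
  have h1 : sPlaceSMul S L.Gal g⁻¹ (placeQ L i) = placeQ L j := by
    refine MaximalSpectrum.ext (Ideal.ext fun x => ?_)
    rw [mem_sPlaceSMul_iff', inv_inv, mem_placeQ, mem_placeQ, h]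
  have h2 := primeOf_sPlaceSMul S L.Gal L.F g⁻¹ (placeQ L i)
  rw [h1, primeOf_placeQ, primeOf_placeQ] at h2
  exact h2.symm

end

end Fermat.Agent.S55.G.LocH897
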